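import Fermat.Agent.Conductor.Residual
import Fermat.Agent.Conductor.Compare
import Fermat.Agent.TW.Cyclo
import Fermat.Agent.GalRep.Construct.Algebra

/-!
# The mod `p` matrices of the Tate module of a curve, and their extension to `O`
-/

set_option autoImplicit false
set_option linter.unusedSectionVars false

open scoped WeierstrassCurve.Affine

namespace FermatAgent.RTLift.Setup

open IsLocalRing FermatAgent.GalRep Matrix

noncomputable section

local notation "Qb" => AlgebraicClosure ℚ
local notation "GQ" => AlgebraicClosure ℚ ≃ₐ[ℚ] AlgebraicClosure ℚ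

variable {p : ℕ} [Fact p.Prime]

theorem castHom_toZModPow_one (x : ℤ_[p]) :
    ZMod.castHom (pow_one p).symm.dvd (ZMod p) (PadicInt.toZModPow 1 x) = PadicInt.toZMod x :=
  RingHom.congr_fun (Conductor.padicHom_ext (ZMod.natCast_self p)
    ((ZMod.castHom (pow_one p).symm.dvd (ZMod p)).comp (PadicInt.toZModPow 1)) PadicInt.toZMod) x

/-- The `p`-adic cyclotomic character modulo `p`. -/
theorem toZMod_cycChar (σ : GQ) :
    PadicInt.toZMod (cycChar p σ) = (ExtCitation.cycloChar p σ : ZMod p) := by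
  have hp := (Fact.out : p.Prime)
  have : NeZero ((p : ℕ) : Qb) := ⟨Nat.cast_ne_zero.2 hp.ne_zero⟩
  obtain ⟨ζ, hζ⟩ := HasEnoughRootsOfUnity.exists_primitiveRoot Qb p
  rw [← castHom_toZModPow_one, toZModPow_cycChar_eq p (a := (ExtCitation.cycloChar p σ : ZMod p).val)
    fun z hz => ?_, map_natCast, ZMod.natCast_zmod_val]
  rw [pow_one] at hz
  obtain ⟨i, -, rfl⟩ := hζ.eq_pow_of_pow_eq_one hz
  rw [map_pow, TW.apply_root_eq_pow hζ σ, ← pow_mul, ← pow_mul, mul_comm]

variable {W : WeierstrassCurve ℤ} (hΔ : (W.map (Int.castRingHom ℚ)).Δ ≠ 0)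

/-- The matrices of Galois on `E[p]`. -/
def gmat : GQ →* Matrix (Fin 2) (Fin 2) (ZMod p) :=
  DefRing.mapRep PadicInt.toZMod (Tate.tateMatHom (p := p) hΔ)

theorem gmat_eq (σ : GQ) :
    gmat (p := p) hΔ σ = (Tate.levelMat (p := p) hΔ 1 σ).map
      (ZMod.castHom (pow_one p).symm.dvd (ZMod p)) := by
  rw [← Tate.tateMatHom_toZModPow hΔ 1 σ]
  ext i j
  exact (castHom_toZModPow_one _).symm

theorem det_gmat (hirr : W.ModRepIsIrreducible p) (σ : GQ) :
    (gmat (p := p) hΔ σ).det = (ExtCitation.cycloChar p σ : ZMod p) := by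
  rw [← toZMod_cycChar, ← Tate.det_eq_cycChar W hΔ (Tate.hasNonscalar_of_irreducible W hΔ hirr) σ]
  exact (RingHom.map_det PadicInt.toZMod _).symm

theorem trace_gmat_frobenius (hirr : W.ModRepIsIrreducible p) {q : ℕ} (hq : q.Prime) (hqp : q ≠ p)
    (hgood : ¬ (q : ℤ) ∣ W.Δ) {A : ValuationSubring Qb} (hA : A.LiesOverPrime q) {φ : GQ}
    (hφ : A.IsFrobeniusAt φ q) :
    (gmat (p := p) hΔ φ).trace = (W.apOfModel q : ZMod p) := by
  have h := (Tate.trace_det_frobenius W hΔ (Tate.hasNonscalar_of_irreducible W hΔ hirr) hq hgood hqp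
    hA hφ).1
  have e : (gmat (p := p) hΔ φ).trace = PadicInt.toZMod (Tate.tateMatHom (p := p) hΔ φ).trace :=
    (AddMonoidHom.map_trace (PadicInt.toZMod (p := p)).toAddMonoidHom _).symm
  rw [e, h, map_intCast]

variable {O : Type} [CommRing O] [IsLocalRing O] [IsAdicComplete (maximalIdeal O) O]
  [Algebra (ZMod p) (ResidueField O)] (hp : (p : O) ∈ maximalIdeal O)

omit hΔ in
/-- Reduction of `ℤ_p → O`. -/
theorem residue_padicToRing (x : ℤ_[p]) :
    residue O (padicToRing hp x) = algebraMap (ZMod p) (ResidueField O) (PadicInt.toZMod x) :=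
  RingHom.congr_fun (Conductor.padicHom_ext
    (show (p : ResidueField O) = 0 by rw [← map_natCast (residue O), residue_eq_zero_iff]; exact hp)
    ((residue O).comp (padicToRing hp)) ((algebraMap (ZMod p) (ResidueField O)).comp PadicInt.toZMod)) x

/-- The Tate module over `O`. -/
def repO : GQ →* Matrix (Fin 2) (Fin 2) O :=
  DefRing.mapRep (padicToRing hp) (Tate.tateMatHom (p := p) hΔ)

/-- The residual representation of the curve over the residue field of `O`. -/
def rhoO : GQ →* GL (Fin 2) (ResidueField O) :=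
  (DefRing.mapRep (algebraMap (ZMod p) (ResidueField O)) (gmat (p := p) hΔ)).toHomUnits

theorem coe_rhoO (σ : GQ) :
    (rhoO (p := p) (O := O) hΔ σ : Matrix (Fin 2) (Fin 2) (ResidueField O)) =
      (gmat (p := p) hΔ σ).map (algebraMap (ZMod p) (ResidueField O)) :=
  rfl

theorem map_repO (σ : GQ) :
    (repO hΔ hp σ).map (residue O) =
      (rhoO (p := p) (O := O) hΔ σ : Matrix (Fin 2) (Fin 2) (ResidueField O)) := by
  ext i j
  exact residue_padicToRing hp _

theorem trace_repO (σ : GQ) :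
    Matrix.trace (repO hΔ hp σ) = padicToRing hp (Tate.tateMatHom (p := p) hΔ σ).trace :=
  (AddMonoidHom.map_trace (padicToRing hp).toAddMonoidHom _).symm

theorem residual_repO (σ : GQ) :
    residue O (Matrix.trace (repO hΔ hp σ)) =
      Matrix.trace (rhoO (p := p) (O := O) hΔ σ : Matrix (Fin 2) (Fin 2) (ResidueField O)) := by
  rw [← map_repO hΔ hp]
  exact AddMonoidHom.map_trace (residue O).toAddMonoidHom _

theorem det_repO (hirr : W.ModRepIsIrreducible p) (σ : GQ) :
    (repO hΔ hp σ).det = padicToRing hp (cycChar p σ) := by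
  rw [← Tate.det_eq_cycChar W hΔ (Tate.hasNonscalar_of_irreducible W hΔ hirr) σ]
  exact (RingHom.map_det (padicToRing hp) _).symm

theorem det_cyclo_rhoO (hirr : W.ModRepIsIrreducible p) (σ : GQ) :
    residue O (padicToRing hp (cycChar p σ)) =
      Matrix.det (rhoO (p := p) (O := O) hΔ σ : Matrix (Fin 2) (Fin 2) (ResidueField O)) := by
  rw [← det_repO hΔ hp hirr, ← map_repO hΔ hp]
  exact RingHom.map_det (residue O) _

theorem isLocalHom_padicToRing : IsLocalHom (padicToRing hp) := by
  refine ⟨fun a ha => ?_⟩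
  by_contra hna
  have h1 : (p : ℤ_[p]) ∣ a := by
    rw [← Ideal.mem_span_singleton, ← PadicInt.maximalIdeal_eq_span_p]
    exact hna
  have h2 := padicToRing_mem_pow hp (n := 1) (x := a) (by rwa [pow_one])
  rw [pow_one] at h2
  exact h2 ha

theorem isCont_repO : DefRing.IsCont (repO hΔ hp) :=
  DefRing.isCont_map _ (isLocalHom_padicToRing hp) (Tate.isCont_tateMatHom hΔ)

end

end FermatAgent.RTLift.Setup
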