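import Fermat.Agent.RTLift.Setup.Global.TresModel
import Fermat.Agent.RTLift.Setup.Global.Residual
import Fermat.Agent.LocalP.Conditions.Line
import Fermat.Agent.RTLift.Finish.Interface

/-!
# Très ramifiée `E[p]` has no finite flat model
-/

set_option autoImplicit false

open scoped WeierstrassCurve.Affine

namespace FermatAgent.RTLift.Setup

open WeierstrassCurve WeierstrassCurve.Affine FermatAgent.Local FermatAgent.TW.Flat Matrix

noncomputable section

local notation "Qb" => AlgebraicClosure ℚ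
local notation "GQ" => AlgebraicClosure ℚ ≃ₐ[ℚ] AlgebraicClosure ℚ

variable {W : WeierstrassCurve ℤ} {p : ℕ} [Fact p.Prime]
  (hΔ : (W.map (Int.castRingHom ℚ)).Δ ≠ 0)

/-- A vector modulo `p` as a `p`-torsion point. -/
def torPt : (Fin 2 → ZMod p) →+ (qbarCurve W).Point :=
  ((Submodule.torsionBy ℤ (GalRep.Tate.Pt (W.map (Int.castRingHom ℚ)))
      ((p ^ 1 : ℕ) : ℤ)).subtype.toAddMonoidHom.comp
    (GalRep.Tate.comb (p := p) hΔ 1).toAddMonoidHom).comp
    ((ZMod.castHom (pow_one p).dvd (ZMod (p ^ 1))).toAddMonoidHom.compLeft (Fin 2))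

omit hΔ in
theorem castHom_castHom_one (z : ZMod (p ^ 1)) :
    ZMod.castHom (pow_one p).dvd (ZMod (p ^ 1))
      (ZMod.castHom (pow_one p).symm.dvd (ZMod p) z) = z := by
  have : NeZero (p ^ 1) := ⟨pow_ne_zero 1 (Fact.out : p.Prime).ne_zero⟩
  rw [← ZMod.natCast_zmod_val z, map_natCast, map_natCast]

omit hΔ in
theorem castHom_castHom_one' (z : ZMod p) :
    ZMod.castHom (pow_one p).symm.dvd (ZMod p)
      (ZMod.castHom (pow_one p).dvd (ZMod (p ^ 1)) z) = z := by
  rw [← ZMod.natCast_zmod_val z, map_natCast, map_natCast]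

theorem torPt_toZMod (v : Fin 2 → ℤ_[p]) :
    torPt hΔ (fun i => PadicInt.toZMod (v i)) = LocalP.ptOf hΔ 1 v := by
  unfold LocalP.ptOf torPt
  simp only [AddMonoidHom.coe_comp, Function.comp_apply, LinearMap.toAddMonoidHom_coe,
    Submodule.subtype_apply]
  congr 2
  funext i
  show ZMod.castHom (pow_one p).dvd (ZMod (p ^ 1)) (PadicInt.toZMod (v i)) = _
  rw [← castHom_toZModPow_one, castHom_castHom_one]

theorem torPt_injective : Function.Injective (torPt (p := p) hΔ) := by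
  intro x y h
  have h1 := (GalRep.Tate.comb_bijective (p := p) hΔ 1).1 (Subtype.ext h)
  funext i
  rw [← castHom_castHom_one' (x i), ← castHom_castHom_one' (y i)]
  exact congrArg _ (congrFun h1 i)

theorem exists_torPt_eq {P : (qbarCurve W).Point} (hP : p • P = 0) :
    ∃ x, torPt (p := p) hΔ x = P := by
  obtain ⟨v, hv⟩ := LocalP.exists_ptOf_eq hΔ 1 (by rwa [pow_one] : p ^ 1 • P = 0)
  exact ⟨_, (torPt_toZMod hΔ v).trans hv⟩

theorem torPt_gmat (σ : GQ) (x : Fin 2 → ZMod p) :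
    torPt hΔ (gmat (p := p) hΔ σ *ᵥ x) = σ • torPt hΔ x := by
  have e : x = fun i => PadicInt.toZMod ((x i).val : ℤ_[p]) := funext fun i => by
    rw [map_natCast, ZMod.natCast_zmod_val]
  rw [e, torPt_toZMod, LocalP.smul_ptOf]
  refine Eq.trans ?_ (torPt_toZMod hΔ (GalRep.Tate.tateMatHom (p := p) hΔ σ *ᵥ _))
  congr 1
  funext i
  exact (RingHom.map_mulVec PadicInt.toZMod _ _ i).symm

/-- Multiplicative at `p` with `p ∤ v(Δ)`: no finite flat model of `E[p]`. -/
theorem false_of_functionModel_tres (hp2 : p ≠ 2) (hirr : W.ModRepIsIrreducible p)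
    (hbad : (p : ℤ) ∣ W.Δ) (hc₄ : ¬ (p : ℤ) ∣ W.c₄) (hv : ¬ (p : ℤ) ∣ padicValRat p (W.Δ : ℚ))
    (G : GalRep.Flat.FunctionModel p (Fin 2 → ZMod p)
      (fun σ x => gmat (p := p) hΔ σ *ᵥ x)) : False := by
  have hp := (Fact.out : p.Prime)
  obtain ⟨A, hA⟩ := RT.exists_liesOverPrime hp
  have hW := qbarCurve_intCoeffs W A
  have hΔ0 : W.Δ ≠ 0 := GalRep.Tate.intΔ_ne_zero W hΔ
  have hvΔ : A.valuation (qbarCurve W).Δ < 1 := by
    rw [qbarCurve_Δ]; exact (val_intCast_lt_one_iff hp hA _).2 hbad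
  have hΔ1 : (qbarCurve W).Δ ≠ 0 := by rw [qbarCurve_Δ]; exact_mod_cast hΔ0
  have hc : A.valuation (qbarCurve W).c₄ = 1 := by
    rw [qbarCurve_c₄]; exact val_intCast_eq_one hp hA hc₄
  obtain ⟨C, hT, hcv, hu, hr, hs, ht, hC⟩ := exists_tate_form hW hvΔ hΔ1 hc
  obtain ⟨m, hm, hdvd⟩ : ∃ m : ℤ, W.Δ = (p : ℤ) ^ padicValInt p W.Δ * m ∧ ¬ (p : ℤ) ∣ m := by
    obtain ⟨m, hm⟩ : (p : ℤ) ^ padicValInt p W.Δ ∣ W.Δ := padicValInt_dvd _
    refine ⟨m, hm, fun hd => ?_⟩
    have := (padicValInt_dvd_iff (p := p) (padicValInt p W.Δ + 1) W.Δ).1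
      ((pow_succ (p : ℤ) _).symm ▸ (mul_dvd_mul_left _ hd).trans hm.symm.dvd)
    rcases this with h | h
    · exact hΔ0 h
    · omega
  have hval : A.valuation (C • qbarCurve W).a₆ = A.valuation (p : Qb) ^ padicValInt p W.Δ := by
    rw [hcv, qbarCurve_Δ]
    conv_lhs => rw [hm]
    rw [Int.cast_mul, Int.cast_pow, map_mul, map_pow, Int.cast_natCast,
      val_intCast_eq_one hp hA hdvd, mul_one]
  have hpv : ¬ p ∣ padicValInt p W.Δ := fun h => hv (by
    rw [padicValRat.of_int]; exact_mod_cast h)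
  have hΔC : (C • qbarCurve W).Δ ≠ 0 := by
    rw [WeierstrassCurve.variableChange_Δ]
    exact mul_ne_zero (pow_ne_zero _ (Units.ne_zero _)) hΔ1
  let back : (qbarCurve W).Point ≃+ (C • qbarCurve W).toAffine.Point :=
    (AddEquiv.ofBijective (vcHom (qbarCurve W) C) (vcHom_bijective _ _)).symm
  have hback : ∀ Q, vcHom (qbarCurve W) C (back Q) = Q := fun Q =>
    (AddEquiv.ofBijective (vcHom (qbarCurve W) C) (vcHom_bijective _ _)).apply_symm_apply Q
  have hfix : ∀ σ ∈ inertiaCyclo p A,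
      (C • qbarCurve W).toAffine.map ((σ : GQ) : Qb →+* Qb) = (C • qbarCurve W).toAffine :=
    fun σ hσ => vc_map_eq (qbarCurve_conj W _) (hC σ hσ.1 (qbarCurve_conj W _))
  refine false_of_isLModel_tres hA hp2 hT hΔC hval hpv hfix
    (ι := back.toAddMonoidHom.comp (torPt hΔ))
    (back.injective.comp (torPt_injective hΔ)) (fun P hP => ?_)
    (fun σ => gmat (p := p) hΔ σ) (fun σ hσ x => ?_) (fun σ hσ => ?_)
    (isLModel_ofFunctionModel G hA)
  · obtain ⟨x, hx⟩ := exists_torPt_eq hΔ (P := vcHom (qbarCurve W) C P)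
      (by rw [← map_nsmul, hP, map_zero])
    refine ⟨x, (vcHom_bijective _ _).1 ?_⟩
    show vcHom _ C (back (torPt hΔ x)) = _
    rw [hback, hx]
  · refine (vcHom_bijective _ _).1 ?_
    rw [vcHom_conjPoint (qbarCurve_conj W _) (hC σ hσ.1 (qbarCurve_conj W _))]
    show vcHom _ C (back (torPt hΔ _)) = conjPoint _ _ _ (vcHom _ C (back (torPt hΔ x)))
    rw [hback, hback, torPt_gmat, galois_smul_eq_conjPoint]
  · rw [det_gmat hΔ hirr, (mem_inertiaCyclo.1 hσ).2, Units.val_one]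

end

end FermatAgent.RTLift.Setup
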