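import Fermat.Agent.RTLift.Setup.Global.Tres
import Fermat.Agent.LocalP.Conditions.Mult

/-!
# A local model of the très ramifiée torsion is impossible
-/

set_option autoImplicit false

open scoped WeierstrassCurve.Affine

namespace FermatAgent.RTLift.Setup

open WeierstrassCurve WeierstrassCurve.Affine FermatAgent.Local FermatAgent.TW FermatAgent.TW.Flat
  Matrix

noncomputable section

local notation "Qb" => AlgebraicClosure ℚ
local notation "GQ" => AlgebraicClosure ℚ ≃ₐ[ℚ] AlgebraicClosure ℚ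

variable {A : ValuationSubring Qb} {W : WeierstrassCurve.Affine Qb} {p : ℕ} [Fact p.Prime]

/-- A torsion point off `E₁` has, up to sign, a low level `g` with `g ^ p = v(c) ^ k`, `0 < k < p`. -/
theorem exists_low_torsion (hT : IsTate A W) (hΔ : W.Δ ≠ 0) (hp2 : p ≠ 2)
    (hpA : A.valuation (p : Qb) < 1) :
    ∃ (P : W.Point) (g : A.ValueGroup) (k : ℕ), p • P = 0 ∧ Low A W P g ∧ 0 < k ∧ k < p ∧
      g ^ p = A.valuation W.a₆ ^ k := by
  have hp := (Fact.out : p.Prime)
  obtain ⟨-, P, hP, hPn⟩ :=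
    LocalP.hasFormalTorsion_of_tate hT hΔ hp hp2 (Nat.cast_ne_zero.2 hp.ne_zero) hpA
  have hE0 : ¬ InE0 A W P := fun h => hPn (LocalP.inE1_of_nsmul_eq_zero_tate hT hp
    (by have := hp.two_le; omega) hpA hP h)
  have main : ∀ {P : W.Point} {g : A.ValueGroup}, p • P = 0 → Low A W P g →
      ∃ k : ℕ, 0 < k ∧ k < p ∧ g ^ p = A.valuation W.a₆ ^ k := by
    intro P g hP hg
    obtain ⟨k, hk⟩ := hT.low_level hΔ hg hp.pos (by rw [hP]; trivial)
    rcases P with _ | ⟨x, y, h⟩
    · exact hg.elim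
    obtain ⟨-, hc, hg1, hy⟩ := hg
    set c := A.valuation W.a₆ with hc'
    have hc0 : c ≠ 0 := hT.val_c_pos.ne'
    have hc1 : c < 1 := hT.c_lt
    have h1 : g ^ p < 1 := pow_lt_one₀ zero_le hg1 hp.ne_zero
    rw [hk, ← zpow_zero c, zpow_lt_zpow_iff' hc0 hc1] at h1
    obtain ⟨n, rfl⟩ := Int.eq_ofNat_of_zero_le h1.le
    rw [zpow_natCast] at hk
    refine ⟨n, by exact_mod_cast h1, ?_, hk⟩
    have h2 : c ^ p < (c ^ n) ^ 2 := by
      rw [← hk, ← pow_mul, mul_comm, pow_mul]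
      exact pow_lt_pow_left₀ hc zero_le hp.ne_zero
    rw [← pow_mul, ← zpow_natCast, ← zpow_natCast, zpow_lt_zpow_iff' hc0 hc1] at h2
    omega
  rcases hT.classify hE0 with ⟨g, hg⟩ | ⟨g, hg⟩ | hm
  · obtain ⟨k, h⟩ := main hP hg
    exact ⟨P, g, k, hP, hg, h⟩
  · obtain ⟨k, h⟩ := main (P := -P) (by rw [neg_nsmul, hP, neg_zero]) hg
    exact ⟨-P, g, k, by rw [neg_nsmul, hP, neg_zero], hg, h⟩
  · exfalso
    obtain ⟨m, hm'⟩ := hp.odd_of_ne_two hp2
    have h2 : InE0 A W (P + P) := by simpa using hT.same_mid hm (hT.mid_neg hm)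
    have h3 := (e0Subgroup A W hT.intCoeffs).nsmul_mem h2 m
    have h4 : P = -(m • (P + P)) := by
      rw [eq_neg_iff_add_eq_zero, ← hP, hm', succ_nsmul, mul_comm, mul_nsmul', two_nsmul, add_comm]
    exact hE0 (h4 ▸ h3.neg' hT.intCoeffs)

variable {f : GQ → ZMod p}

/-- No local model of the torsion when `p ∤ v(c)`. -/
theorem false_of_isLModel_tres (hA : A.LiesOverPrime p) (hp2 : p ≠ 2) (hT : IsTate A W)
    (hΔ : W.Δ ≠ 0) {v : ℕ} (hv : A.valuation W.a₆ = A.valuation (p : Qb) ^ v) (hpv : ¬ p ∣ v)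
    (hfix : ∀ σ ∈ inertiaCyclo p A, W.map ((σ : GQ) : Qb →+* Qb) = W)
    {ι : (Fin 2 → ZMod p) →+ W.Point} (hι : Function.Injective ι)
    (honto : ∀ P : W.Point, p • P = 0 → ∃ x, ι x = P)
    (R : GQ → Matrix (Fin 2) (Fin 2) (ZMod p))
    (hR : ∀ σ (hσ : σ ∈ inertiaCyclo p A) x,
      ι (R σ *ᵥ x) = conjPoint W (σ : Qb →+* Qb) (hfix σ hσ) (ι x))
    (hdet : ∀ σ ∈ inertiaCyclo p A, (R σ).det = 1)
    {M : Submodule (fixRing A (inertiaCyclo p A)) ((Fin 2 → ZMod p) → Qb)}
    (hM : IsLModel (fun σ x => R σ *ᵥ x) M) : False := by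
  classical
  have hp := (Fact.out : p.Prime)
  set J := inertiaCyclo p A with hJdef
  have hJI : J ≤ A.inertiaSubgroupIn ℚ := inf_le_left
  have hJD : J ≤ A.decompositionSubgroup ℚ := fun σ hσ => mem_decomposition_of_inertia (hJI hσ)
  obtain ⟨ζ, hζ⟩ : ∃ ζ : Qb, IsPrimitiveRoot ζ p :=
    have : NeZero ((p : ℕ) : Qb) := ⟨Nat.cast_ne_zero.2 hp.ne_zero⟩
    HasEnoughRootsOfUnity.exists_primitiveRoot Qb p
  have hu := uniform_inertiaCyclo hζ hA
  set u := A.valuation (ζ - 1) with hudef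
  have hup : u ^ (p - 1) = A.valuation (p : Qb) := Duality.Local.val_zeta_sub_one_pow hζ
  obtain ⟨P, g, k, hP, hlow, hk0, hkp, hgk⟩ := exists_low_torsion (p := p) hT hΔ hp2 hA
  set s := (p - 1) * (v * k) with hsdef
  have hgs : g ^ p = u ^ s := by rw [hgk, hv, ← hup, ← pow_mul, ← pow_mul, hsdef]
  have hsp : ¬ p ∣ s := by
    rw [hsdef]
    intro h
    rcases hp.dvd_mul.1 h with h | h
    · have := Nat.le_of_dvd (by have := hp.two_le; omega) h
      omega
    rcases hp.dvd_mul.1 h with h | h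
    · exact hpv h
    · exact absurd (Nat.le_of_dvd hk0 h) (by omega)
  obtain ⟨x₀, hx₀⟩ := honto P hP
  obtain ⟨xP, yP, hPn, hPeq⟩ : ∃ x y h, P = Point.some x y h := by
    rcases P with _ | ⟨x, y, h⟩
    exacts [hlow.elim, ⟨x, y, h, rfl⟩]
  have hlow' := hlow
  rw [hPeq] at hlow'
  have hxP : A.valuation xP = g := hlow'.1
  have hPE : ¬ InE1 A W P := by
    rw [hPeq]; exact fun h => h (mem_of_val_le_one (hxP.trans_le hlow'.2.2.1.le))
  let L : Submodule (ZMod p) (Fin 2 → ZMod p) :=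
    AddSubgroup.toZModSubmodule p ((e1Subgroup A W hT.intCoeffs).comap ι)
  have hL : ∀ x, x ∈ L ↔ InE1 A W (ι x) := fun x => Iff.rfl
  have hLne : L ≠ ⊤ := fun h => hPE (by
    rw [← hx₀, ← hL, h]; exact Submodule.mem_top)
  have hmove : ∀ σ ∈ J, ∀ x, R σ *ᵥ x - x ∈ L := by
    intro σ hσ x
    rw [hL, map_sub, hR σ hσ]
    refine LocalP.inE1_of_nsmul_eq_zero_tate hT hp (by have := hp.two_le; omega) hA ?_
      (hT.conj_sub_inE0 _ (hJD hσ) _)
    rw [nsmul_sub, ← map_nsmul, ← map_nsmul, show p • x = 0 from ?_, map_zero, map_zero, sub_zero]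
    funext i
    simp
  -- `J` is trivial on the line
  have hline : ∀ σ ∈ J, ∀ x ∈ L, R σ *ᵥ x = x := by
    intro σ hσ x hx
    by_contra hne
    set N := R σ - 1 with hN
    have hNv : ∀ z, N *ᵥ z = R σ *ᵥ z - z := fun z => by rw [hN, Matrix.sub_mulVec, Matrix.one_mulVec]
    have hdN : N.det = 0 := by
      by_contra hd
      refine hLne (eq_top_iff.2 fun z _ => ?_)
      have hz : N *ᵥ (N⁻¹ *ᵥ z) = z := by
        rw [Matrix.mulVec_mulVec, Matrix.mul_nonsing_inv _ (Ne.isUnit hd), Matrix.one_mulVec]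
      rw [← hz, hNv]
      exact hmove σ hσ _
    have htN : N.trace = 0 := by
      have h := hdet σ hσ
      rw [Matrix.det_fin_two] at h hdN
      simp only [hN, Matrix.sub_apply, Matrix.one_apply_eq, ne_eq, Fin.reduceEq, not_false_eq_true,
        Matrix.one_apply_ne, sub_zero] at hdN
      rw [hN, Matrix.trace_fin_two]
      simp only [Matrix.sub_apply, Matrix.one_apply_eq]
      linear_combination h - hdN
    have hsq : N * N = 0 := by
      have h := N.aeval_self_charpoly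
      rw [Matrix.charpoly_fin_two, htN, hdN] at h
      simpa [sq] using h
    have hNx : N *ᵥ x ≠ 0 := by rw [hNv]; exact sub_ne_zero.2 hne
    -- `L` is the line of `N x`
    refine hLne ?_
    have hindep : LinearIndependent (ZMod p) ![x, N *ᵥ x] := by
      rw [LinearIndependent.pair_iff]
      intro a b hab
      have h := congrArg (fun z => N *ᵥ z) hab
      simp only [Matrix.mulVec_add, Matrix.mulVec_smul, Matrix.mulVec_mulVec, hsq, Matrix.zero_mulVec,
        smul_zero, add_zero, Matrix.mulVec_zero] at h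
      obtain rfl : a = 0 := by
        by_contra ha
        exact hNx ((smul_eq_zero.1 h).resolve_left ha)
      rw [zero_smul, zero_add] at hab
      exact ⟨rfl, (smul_eq_zero.1 hab).resolve_right hNx⟩
    have hspan := hindep.span_eq_top_of_card_eq_finrank (by simp)
    rw [eq_top_iff, ← hspan, Submodule.span_le]
    rintro z ⟨i, rfl⟩
    fin_cases i
    · exact hx
    · show N *ᵥ x ∈ L
      rw [hNv]; exact hmove σ hσ x
  -- an element moving `x₀`
  obtain ⟨σ₁', hσ₁', hw'⟩ : ∃ σ ∈ J, R σ *ᵥ x₀ - x₀ ≠ 0 := by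
    by_contra hno
    push Not at hno
    have hxfix : ∀ σ ∈ J, σ xP = xP := by
      intro σ hσ
      have h := hR σ hσ x₀
      rw [sub_eq_zero.1 (hno σ hσ), hx₀, hPeq, conjPoint_some] at h
      have := congrArg LocalP.xCoord h
      simpa using this.symm
    have hxne : xP ≠ 0 := fun h0 => by
      have := hgs
      rw [← hxP, h0, map_zero, zero_pow hp.ne_zero] at this
      exact pow_ne_zero s hu.ne_zero this.symm
    obtain ⟨n, hn⟩ := hu.fixed xP hxne hxfix
    rw [← hxP, hn, ← zpow_natCast, ← zpow_natCast, ← _root_.zpow_mul] at hgs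
    have h := zpow_inj_of_lt_one hu.ne_zero hu.lt_one hgs
    exact hsp (Int.natCast_dvd_natCast.1 ⟨n, by rw [← h]; ring⟩)
  set w := R σ₁' *ᵥ x₀ - x₀ with hwdef
  have hwL : w ∈ L := hmove σ₁' hσ₁' x₀
  have hLw : ∀ x ∈ L, ∃ c : ZMod p, c • w = x := by
    intro x hx
    by_contra hno
    refine hLne ?_
    have hindep : LinearIndependent (ZMod p) ![w, x] := by
      rw [LinearIndependent.pair_iff]
      intro a b hab
      rcases eq_or_ne b 0 with rfl | hb
      · rw [zero_smul, add_zero] at hab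
        exact ⟨(smul_eq_zero.1 hab).resolve_right hw', rfl⟩
      · refine (hno ⟨-(b⁻¹ * a), ?_⟩).elim
        have h1 : b • x = -(a • w) := eq_neg_of_add_eq_zero_right hab
        rw [← inv_smul_smul₀ hb x, h1, smul_neg, smul_smul, neg_smul]
    have hspan := hindep.span_eq_top_of_card_eq_finrank (by simp)
    rw [eq_top_iff, ← hspan, Submodule.span_le]
    rintro z ⟨i, rfl⟩
    fin_cases i <;> assumption
  have hex : ∀ σ, ∃ c : ZMod p, σ ∈ J → R σ *ᵥ x₀ = x₀ + c • w := fun σ => by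
    by_cases hσ : σ ∈ J
    · obtain ⟨c, hc⟩ := hLw _ (hmove σ hσ x₀)
      exact ⟨c, fun _ => by rw [hc, add_sub_cancel]⟩
    · exact ⟨0, fun h => absurd h hσ⟩
  choose f hf using hex
  have hsmul : ∀ σ ∈ J, ∀ j : ZMod p, R σ *ᵥ (x₀ + j • w) = x₀ + (j + f σ) • w := by
    intro σ hσ j
    rw [Matrix.mulVec_add, Matrix.mulVec_smul, hline σ hσ w hwL, hf σ hσ, add_smul]
    abel
  have hf₁ : f σ₁' = 1 := by
    by_contra hne
    have h := hf σ₁' hσ₁'
    have : (f σ₁' - 1) • w = 0 := by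
      rw [sub_smul, one_smul, sub_eq_zero, hwdef, ← hwdef]
      rw [hwdef] at h ⊢
      exact (eq_sub_of_add_eq' h.symm)
    exact hw' ((smul_eq_zero.1 this).resolve_left (sub_ne_zero.2 hne))
  let Pt : ZMod p → W.Point := fun j => ι (x₀ + j • w)
  let y : ZMod p → Qb := fun j => LocalP.xCoord (Pt j)
  have hxc : ∀ σ (hσ : σ ∈ J) (Q : W.Point),
      LocalP.xCoord (conjPoint W (σ : Qb →+* Qb) (hfix σ hσ) Q) = σ (LocalP.xCoord Q) := by
    intro σ hσ Q
    rcases Q with _ | ⟨a, b, h⟩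
    · exact (map_zero σ).symm
    · rfl
  have hyJ : ∀ σ ∈ J, ∀ j, σ (y j) = y (j + f σ) := by
    intro σ hσ j
    show σ (LocalP.xCoord (ι _)) = LocalP.xCoord (ι _)
    rw [← hxc σ hσ, ← hR σ hσ, hsmul σ hσ]
  have hy0 : y 0 = xP := by
    show LocalP.xCoord (ι _) = xP
    rw [zero_smul, add_zero, hx₀, hPeq]
    rfl
  have hne : y 1 ≠ y 0 := by
    intro he
    have h0 : σ₁' xP = xP := by rw [← hy0, hyJ σ₁' hσ₁', zero_add, hf₁, he]
    have hall : ∀ n : ℕ, y n = xP := by
      intro n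
      induction n with
      | zero => rw [Nat.cast_zero, hy0]
      | succ n ih => rw [Nat.cast_succ, ← hf₁, ← hyJ σ₁' hσ₁', ih, h0]
    have hxfix : ∀ σ ∈ J, σ xP = xP := fun σ hσ => by
      rw [← hy0, hyJ σ hσ, zero_add, ← ZMod.natCast_zmod_val (f σ), hall, hy0]
    have hxne : xP ≠ 0 := fun h0 => by
      have := hgs
      rw [← hxP, h0, map_zero, zero_pow hp.ne_zero] at this
      exact pow_ne_zero s hu.ne_zero this.symm
    obtain ⟨n, hn⟩ := hu.fixed xP hxne hxfix
    rw [← hxP, hn, ← zpow_natCast, ← zpow_natCast, ← _root_.zpow_mul] at hgs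
    have h := zpow_inj_of_lt_one hu.ne_zero hu.lt_one hgs
    exact hsp (Int.natCast_dvd_natCast.1 ⟨n, by rw [← h]; ring⟩)
  have hinj : Function.Injective y := by
    intro i j hij
    by_contra hne'
    have hd : j - i ≠ 0 := sub_ne_zero.2 (Ne.symm hne')
    have hper : ∀ n : ℕ, y (i + n) = y (j + n) := by
      intro n
      induction n with
      | zero => simpa using hij
      | succ n ih =>
        rw [Nat.cast_succ, ← add_assoc, ← add_assoc, ← hf₁, ← hyJ σ₁' hσ₁', ← hyJ σ₁' hσ₁', ih]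
    have hper' : ∀ t, y t = y (t + (j - i)) := fun t => by
      have := hper (t - i).val
      rw [ZMod.natCast_zmod_val, add_sub_cancel] at this
      rw [this]; ring_nf
    have hmul : ∀ n : ℕ, y ((n : ZMod p) * (j - i)) = y 0 := by
      intro n
      induction n with
      | zero => simp
      | succ n ih => rw [Nat.cast_succ, add_mul, one_mul, ← hper', ih]
    refine hne ?_
    rw [← hmul ((1 : ZMod p) * (j - i)⁻¹).val, ZMod.natCast_zmod_val, one_mul, inv_mul_cancel₀ hd]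
  obtain ⟨G, hG, hmax⟩ := hM.exists_max_diff (x₀ + w) x₀
  have hsmall := hM.small_of_translate hmax
  have hTp := hM.val_p_le_pow (p := p) hA hw' (funext fun i => by simp) hsmall
  have hGJ : ∀ σ ∈ J, ∀ j : ZMod p, σ (G (x₀ + j • w)) = G (x₀ + (j + f σ) • w) := by
    intro σ hσ j
    rw [← hsmul σ hσ j]
    exact (hM.equivariant G hG σ hσ _).symm
  obtain ⟨a, ha, hexp⟩ := exists_expansion_interpolate (y := y) (G := fun j => G (x₀ + j • w))
    hinj hyJ hGJ
  have hmv : A.valuation (σ₁' (y 0) - y 0) ≤ u * A.valuation (y 0) := by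
    rw [hyJ σ₁' hσ₁', zero_add, hf₁, hy0, hxP]
    show A.valuation (LocalP.xCoord (ι _) - xP) ≤ u * g
    rw [one_smul, map_add, hx₀, hPeq]
    have hwE : InE1 A W (ι w) := (hL w).1 hwL
    rcases hι' : ι w with _ | ⟨t, t', hQ⟩
    · exact absurd (hι (hι'.trans (map_zero ι).symm)) hw'
    rw [hι'] at hwE
    refine val_xCoord_add_sub_le hT hu hlow' hwE fun σ hσ => ?_
    have h := hR σ hσ w
    rw [hline σ hσ w hwL, hι', conjPoint_some] at h
    simp only [Point.some.injEq, RingHom.coe_coe] at h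
    exact ⟨h.1.symm, h.2.symm⟩
  have hyv : A.valuation (y 0) ^ p = u ^ s := by rw [hy0, hxP, hgs]
  have hlt := val_move_lt hu hJD ha hsp hyv (hM.mem_A hG x₀)
    (by simpa using hexp 0) hσ₁' hmv
  have e : σ₁' (G x₀) = G (x₀ + w) := by
    have := hGJ σ₁' hσ₁' 0
    rwa [zero_smul, add_zero, zero_add, hf₁, one_smul] at this
  rw [e] at hlt
  rw [← hup] at hTp
  exact absurd hTp (not_le.2 (pow_lt_pow_left₀ hlt zero_le (by have := hp.two_le; omega)))

end

end FermatAgent.RTLift.Setup
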