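import Fermat.Agent.RTLift.Setup.Global.Residual
import Fermat.Agent.GalRep.Flat.Closure
import Fermat.Agent.DefRing.MatrixRep

/-!
# A flat lift of `E[p]` gives a finite flat model of `E[p]`
-/

set_option autoImplicit false
set_option linter.unusedSectionVars false

namespace FermatAgent.RTLift.Setup

open IsLocalRing FermatAgent.GalRep Matrix

noncomputable section

local notation "Qb" => AlgebraicClosure ℚ
local notation "GQ" => AlgebraicClosure ℚ ≃ₐ[ℚ] AlgebraicClosure ℚ

variable {O : Type} [CommRing O] [IsLocalRing O] {S : Type} [CommRing S] [IsLocalRing S]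
  [Algebra O S]

/-- A finite algebra over a local ring is local over it. -/
theorem isLocalHom_of_finite [Module.Finite O S] : IsLocalHom (algebraMap O S) := by
  refine ⟨fun a ha => by_contra fun hna => ?_⟩
  have hm : a ∈ maximalIdeal O := hna
  have htop : (⊤ : Submodule O S) ≤ maximalIdeal O • (⊤ : Submodule O S) := by
    intro s _
    obtain ⟨b, hb⟩ := ha.exists_left_inv
    have e : s = a • (b * s) := by rw [Algebra.smul_def, ← mul_assoc, mul_comm _ b, hb, one_mul]
    rw [e]
    exact Submodule.smul_mem_smul hm Submodule.mem_top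
  have hbot := Submodule.eq_bot_of_le_smul_of_le_jacobson_bot (maximalIdeal O) (⊤ : Submodule O S)
    Module.Finite.fg_top htop (IsLocalRing.maximalIdeal_le_jacobson _)
  exact one_ne_zero (α := S) ((Submodule.eq_bot_iff _).1 hbot 1 Submodule.mem_top)

variable {p : ℕ} [Fact p.Prime] [Algebra (ZMod p) (ResidueField O)]
  [IsAdicComplete (maximalIdeal O) O] {W : WeierstrassCurve ℤ}
  (hΔ : (W.map (Int.castRingHom ℚ)).Δ ≠ 0)

/-- A flat lift with the traces of `E[p]` gives a model of `E[p]`. -/
theorem functionModel_of_flat_lift [Module.Finite O S] (r' : GQ →* Matrix (Fin 2) (Fin 2) S)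
    (hc : DefRing.IsCont r') (hflat : (DefRing.toAdic r' hc).IsFlatAt p)
    (htr : ∀ σ, ∃ o : O, residue O o =
        Matrix.trace (rhoO (p := p) (O := O) hΔ σ : Matrix (Fin 2) (Fin 2) (ResidueField O)) ∧
      Matrix.trace (r' σ) - algebraMap O S o ∈ maximalIdeal S)
    (hspan : Submodule.span (ZMod p) (Set.range (gmat (p := p) hΔ)) = ⊤) :
    Nonempty (GalRep.Flat.FunctionModel p (Fin 2 → ZMod p)
      (fun σ x => gmat (p := p) hΔ σ *ᵥ x)) := by
  classical
  obtain ⟨hfinres, hall⟩ := hflat
  set I := maximalIdeal S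
  obtain ⟨H, hR, hH, hfin, -, -, e, hadd, heq⟩ := hall I hfinres
  have hloc : IsLocalHom (algebraMap O S) := isLocalHom_of_finite
  let κ : ResidueField O →+* ResidueField S := IsLocalRing.ResidueField.map (algebraMap O S)
  let ψ : ZMod p →+* ResidueField S := κ.comp (algebraMap (ZMod p) (ResidueField O))
  set V := Fin 2 → S
  let θ₀ : V →+ (Fin 2 → ResidueField S) := (residue S).toAddMonoidHom.compLeft (Fin 2)
  have hker : ∀ v : V, v ∈ I • (⊤ : Submodule S V) ↔ θ₀ v = 0 := fun v => by
    rw [DefRing.pi_mem_smul_top_iff, funext_iff]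
    exact forall_congr' fun i => (residue_eq_zero_iff (v i)).symm
  let θ : (V ⧸ (I • ⊤ : Submodule S V)) →+ (Fin 2 → ResidueField S) :=
    QuotientAddGroup.lift (I • ⊤ : Submodule S V).toAddSubgroup θ₀ fun v hv => (hker v).1 hv
  have hθb : Function.Bijective θ := by
    refine ⟨(injective_iff_map_eq_zero θ).2 fun q => ?_, fun x => ?_⟩
    · induction q using Submodule.Quotient.induction_on with
      | _ v => exact fun h => (Submodule.Quotient.mk_eq_zero _).2 ((hker v).2 h)
    · choose v hv using fun i => residue_surjective (x i)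
      exact ⟨Submodule.Quotient.mk v, funext hv⟩
  let rbar : GQ →* Matrix (Fin 2) (Fin 2) (ResidueField S) := DefRing.mapRep (residue S) r'
  have hθact : ∀ σ q, θ ((DefRing.toAdic r' hc).levelAction I σ q) = rbar σ *ᵥ θ q := fun σ q => by
    induction q using Submodule.Quotient.induction_on with
    | _ v => exact funext fun i => RingHom.map_mulVec (residue S) (r' σ) v i
  let G₀ : GalRep.Flat.FunctionModel p (Fin 2 → ResidueField S) (fun σ x => rbar σ *ᵥ x) :=
    GalRep.Flat.FunctionModel.ofHopf (e.trans (Equiv.ofBijective θ hθb))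
      (fun f g => by show θ (e (f * g)) = θ (e f) + θ (e g); rw [hadd]; exact map_add θ _ _)
      (fun σ f g h => by show θ (e g) = rbar σ *ᵥ θ (e f); rw [heq σ f g h]; exact hθact σ _)
  let a : GQ →* Matrix (Fin 2) (Fin 2) (ResidueField S) := DefRing.mapRep ψ (gmat (p := p) hΔ)
  have ha : Submodule.span (ResidueField S) (Set.range a) = ⊤ :=
    Conductor.span_range_map_eq_top ψ _ hspan
  have htr' : ∀ σ, (a σ).trace = (rbar σ).trace := fun σ => by
    obtain ⟨o, ho, ho'⟩ := htr σ
    have h1 : (rbar σ).trace = residue S (r' σ).trace :=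
      (AddMonoidHom.map_trace (residue S).toAddMonoidHom _).symm
    have h2 : residue S (r' σ).trace = residue S (algebraMap O S o) := by
      rw [← sub_eq_zero, ← map_sub, residue_eq_zero_iff]; exact ho'
    rw [h1, h2, ← IsLocalRing.ResidueField.map_residue, ho]
    show Matrix.trace ((gmat (p := p) hΔ σ).map ψ) =
      κ (Matrix.trace ((gmat (p := p) hΔ σ).map (algebraMap (ZMod p) (ResidueField O))))
    simp only [Matrix.trace_fin_two, Matrix.map_apply, map_add]
    rfl
  obtain ⟨P, hP, hPg⟩ := GalRep.exists_conj_of_trace_eq a rbar ha htr'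
  have hPdet : IsUnit P.det := (Matrix.isUnit_iff_isUnit_det P).1 hP
  let j : (Fin 2 → ZMod p) →+ (Fin 2 → ResidueField S) :=
    AddMonoidHom.mk' (fun x => P *ᵥ (ψ ∘ x)) fun x y => by
      rw [← Matrix.mulVec_add]
      congr 1
      funext i
      exact map_add ψ _ _
  have hj : Function.Injective j := by
    intro x y h
    have h1 := Matrix.mulVec_injective_iff_isUnit.2 hP h
    exact funext fun i => ψ.injective (congrFun h1 i)
  refine ⟨G₀.restrict _ j hj fun σ x => ?_⟩
  show P *ᵥ (ψ ∘ (gmat (p := p) hΔ σ *ᵥ x)) = rbar σ *ᵥ (P *ᵥ (ψ ∘ x))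
  rw [Matrix.mulVec_mulVec, ← hPg, ← Matrix.mulVec_mulVec]
  congr 1
  funext i
  exact RingHom.map_mulVec ψ _ _ i

end

end FermatAgent.RTLift.Setup
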