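import Fermat.Agent.RTLift.Setup.Global.FlatBase
import Fermat.Agent.RTLift.Setup.Global.FlatResidual
import Fermat.Agent.RTLift.Setup.Global.TresCurve
import Fermat.Agent.RTLift.Galois.Defs
import Fermat.Agent.TW.Defs
import Fermat.Agent.LocalP.Conditions.StrictOrdinary
import Fermat.Agent.LocalP.Conditions.Away
import Fermat.Agent.LocalP.Conditions.Flat

/-!
# The curve at `p`
-/

set_option autoImplicit false
set_option linter.unusedSectionVars false

namespace FermatAgent.RTLift.Setup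

open IsLocalRing FermatAgent.GalRep Matrix

noncomputable section

local notation "Qb" => AlgebraicClosure ℚ
local notation "GQ" => AlgebraicClosure ℚ ≃ₐ[ℚ] AlgebraicClosure ℚ

variable {W : WeierstrassCurve ℤ} {p : ℕ} [Fact p.Prime]
  (hΔ : (W.map (Int.castRingHom ℚ)).Δ ≠ 0)
  {O : Type} [CommRing O] [IsLocalRing O] [IsAdicComplete (maximalIdeal O) O]
  [Algebra (ZMod p) (ResidueField O)] (hp : (p : O) ∈ maximalIdeal O)

/-- Good at `p`: flat. -/
theorem isFlatAt_repO [Finite (ResidueField O)] (hgood : ¬ (p : ℤ) ∣ W.Δ)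
    (hc : DefRing.IsCont (repO hΔ hp)) : (DefRing.toAdic (repO hΔ hp) hc).IsFlatAt p :=
  isFlatAt_mapRep_padicToRing hp _ (Tate.isCont_tateMatHom hΔ) hc (LocalP.tateRep_isFlatAt hΔ hgood)

omit [Algebra (ZMod p) (ResidueField O)] in
/-- Vectors modulo a line with residually non-zero generator. -/
theorem exists_smul_of_qcoord_eq_zero {k : Type} [Field k] {v u : Fin 2 → k} (hv : v ≠ 0)
    (h : Galois.qcoord v u = 0) : ∃ r : k, u = r • v := by
  unfold Galois.qcoord at h
  by_cases h0 : v 0 = 0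
  · have h1 : v 1 ≠ 0 := fun h1 => hv (funext fun i => by fin_cases i <;> assumption)
    have hu : u 0 = 0 := by
      rw [h0, zero_mul, zero_sub, neg_eq_zero, mul_eq_zero] at h
      exact h.resolve_left h1
    exact ⟨u 1 / v 1, funext fun i => by fin_cases i <;> simp [h0, hu, h1]⟩
  · refine ⟨u 0 / v 0, funext fun i => ?_⟩
    fin_cases i
    · simp [h0]
    · show u 1 = u 0 / v 0 * v 1
      field_simp
      linear_combination h

/-- Multiplicative at `p`: strictly ordinary, with an ordinary line residually. -/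
theorem exists_strictPoint (hp2 : p ≠ 2) (hirr : W.ModRepIsIrreducible p) (hbad : (p : ℤ) ∣ W.Δ)
    (hc₄ : ¬ (p : ℤ) ∣ W.c₄) :
    ∃ A : ValuationSubring Qb, A.LiesOverPrime p ∧
      Galois.IsStrictPoint ((padicToRing hp).toMonoidHom.comp (cycChar p)) (repO hΔ hp) A ∧
      ∃ v, TW.OrdLine (rhoO (p := p) (O := O) hΔ) A v := by
  classical
  obtain ⟨A, hA⟩ := RT.exists_liesOverPrime (Fact.out : p.Prime)
  obtain ⟨L, ⟨b, rfl⟩, hstab, hinert, hstrict⟩ := (LocalP.tateRep_isStrictOrdinaryAt hΔ hp2 hbad hc₄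
    (LocalP.tateRep_detIsCyclotomic_of_irreducible hΔ hirr)).2 A hA
  set φ := padicToRing (R := O) hp
  set b₀ : Fin 2 → ℤ_[p] := b 0
  set w : Fin 2 → O := φ ∘ b₀
  have hq0 : ∀ u : Fin 2 → ℤ_[p], u ∈ Submodule.span ℤ_[p] {b₀} → Galois.qcoord b₀ u = 0 := by
    intro u hu
    obtain ⟨c, rfl⟩ := Submodule.mem_span_singleton.1 hu
    simp [Galois.qcoord]
    ring
  -- a matrix whose values lie on the line acts trivially on the quotient
  have hline : ∀ N : Matrix (Fin 2) (Fin 2) ℤ_[p],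
      (∀ u, Galois.qcoord b₀ (N *ᵥ u) = 0) → ∀ v, Galois.qcoord w (N.map φ *ᵥ v) = 0 := by
    intro N hN v
    have h0 := congrArg φ (hN ![1, 0])
    have h1 := congrArg φ (hN ![0, 1])
    simp [Galois.qcoord, Matrix.mulVec, dotProduct, Fin.sum_univ_two, w] at h0 h1 ⊢
    linear_combination v 0 * h0 + v 1 * h1
  have hI : ∀ σ ∈ A.inertiaSubgroupIn ℚ, ∀ v, Galois.qcoord w (repO hΔ hp σ *ᵥ v) =
      Galois.qcoord w v := by
    intro σ hσ v
    have h := hline (Tate.tateMatHom (p := p) hΔ σ - 1) (fun u => by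
      refine hq0 _ ?_
      rw [Matrix.sub_mulVec, Matrix.one_mulVec]
      exact hinert σ hσ u) v
    rw [Matrix.map_sub _ (map_sub φ), Matrix.map_one _ (map_zero φ) (map_one φ), Matrix.sub_mulVec,
      Matrix.one_mulVec,
      show (Tate.tateMatHom (p := p) hΔ σ).map φ = repO hΔ hp σ from rfl] at h
    simp [Galois.qcoord] at h ⊢
    linear_combination h
  have hD : ∀ g ∈ A.decompositionSubgroup ℚ, ∃ x z : O, repO hΔ hp g *ᵥ w = x • w ∧
      (∀ v, Galois.qcoord w (repO hΔ hp g *ᵥ v) = z * Galois.qcoord w v) ∧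
      x = φ (cycChar p g) * z := by
    intro g hg
    obtain ⟨x, z, hx, hz, hxz⟩ := hstrict g hg
    refine ⟨φ x, φ z, ?_, fun v => ?_, ?_⟩
    · have h : Tate.tateMatHom (p := p) hΔ g *ᵥ b₀ = x • b₀ :=
        hx b₀ (Submodule.mem_span_singleton_self _)
      funext i
      have h' := congrArg φ (congrFun h i)
      rw [RingHom.map_mulVec, Pi.smul_apply, smul_eq_mul, map_mul] at h'
      exact h'
    · have h := hline (Tate.tateMatHom (p := p) hΔ g - z • 1) (fun u => by
        refine hq0 _ ?_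
        rw [Matrix.sub_mulVec, Matrix.smul_mulVec, Matrix.one_mulVec]
        exact hz u) v
      have e : (Tate.tateMatHom (p := p) hΔ g - z • 1).map φ = repO hΔ hp g - φ z • 1 := by
        ext i j
        by_cases hij : i = j <;> simp [repO, hij, φ]
      rw [e, Matrix.sub_mulVec, Matrix.smul_mulVec, Matrix.one_mulVec] at h
      simp [Galois.qcoord] at h ⊢
      linear_combination h
    · have e : x = cycChar p g * z := by
        refine PadicInt.ext_of_toZModPow.1 fun n => ?_
        have : NeZero (p ^ n) := ⟨pow_ne_zero n (Fact.out : p.Prime).ne_zero⟩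
        have h := hxz n ((PadicInt.toZModPow n) (cycChar p g)).val fun μ hμ => cycChar_spec p g n hμ
        rw [Nat.cast_pow, ← PadicInt.ker_toZModPow, RingHom.mem_ker, map_sub, map_mul, map_natCast,
          ZMod.natCast_zmod_val, sub_eq_zero] at h
        rw [h, map_mul]
      rw [e, map_mul]
  have hw : residue O ∘ w ≠ 0 := by
    intro h
    have hmem : ∀ i, b₀ i ∈ maximalIdeal ℤ_[p] := fun i => by
      intro hu
      exact (residue_ne_zero_iff_isUnit _).2 (hu.map φ) (congrFun h i)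
    let c : (Fin 2 → ℤ_[p]) →ₗ[ℤ_[p]] ℤ_[p] := b.coord 0
    have h1 : (1 : ℤ_[p]) = ∑ i, b₀ i * c (Pi.single i 1) := by
      calc (1 : ℤ_[p]) = c b₀ :=
            ((DFunLike.congr_fun (b.repr_self 0) 0).trans Finsupp.single_eq_same).symm
        _ = _ := by
          conv_lhs => rw [pi_eq_sum_univ' b₀]
          simp only [map_sum, map_smul, smul_eq_mul]
    have h2 : (1 : ℤ_[p]) ∈ maximalIdeal ℤ_[p] := by
      rw [h1]; exact Ideal.sum_mem _ fun i _ => Ideal.mul_mem_right _ _ (hmem i)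
    exact (maximalIdeal.isMaximal ℤ_[p]).ne_top ((Ideal.eq_top_iff_one _).2 h2)
  have hmap : ∀ σ (v : Fin 2 → O),
      (rhoO (p := p) (O := O) hΔ σ : Matrix (Fin 2) (Fin 2) (ResidueField O)) *ᵥ (residue O ∘ v) =
        residue O ∘ (repO hΔ hp σ *ᵥ v) := by
    intro σ v
    rw [← map_repO hΔ hp]
    funext i
    exact (RingHom.map_mulVec (residue O) _ _ i).symm
  refine ⟨A, hA, ⟨w, fun h => hw (by rw [h]; funext i; exact map_zero _), hI, fun g hg => ?_⟩,
    residue O ∘ w, hw, fun σ hσ => ?_, fun σ hσ u => ?_⟩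
  · obtain ⟨x, z, hx, hz, hxz⟩ := hD g hg
    exact ⟨x, z, hx, hz, hxz⟩
  · obtain ⟨x, z, hx, -, -⟩ := hD σ hσ
    refine ⟨residue O x, ?_⟩
    rw [hmap, hx]
    funext i
    simp
  · choose v hv using fun i => residue_surjective (u i)
    obtain rfl : u = residue O ∘ v := funext fun i => (hv i).symm
    refine exists_smul_of_qcoord_eq_zero hw ?_
    rw [hmap]
    have h := congrArg (residue O) (hI σ hσ v)
    simp [Galois.qcoord] at h ⊢
    linear_combination h

/-- Très ramifiée: no lift is flat. -/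
theorem not_isFlatAt_of_not_flatMod (hp2 : p ≠ 2) (hirr : W.ModRepIsIrreducible p)
    (hss : W.IsSemistableModel)
    (hspan : Submodule.span (ZMod p) (Set.range (gmat (p := p) hΔ)) = ⊤)
    (hnf : ¬ Finish.FlatMod W p) {S : Type} [CommRing S] [IsLocalRing S] [Algebra O S]
    [Module.Finite O S] (r' : GQ →* Matrix (Fin 2) (Fin 2) S) (hc : DefRing.IsCont r')
    (htr : ∀ σ, ∃ o : O, residue O o =
        Matrix.trace (rhoO (p := p) (O := O) hΔ σ : Matrix (Fin 2) (Fin 2) (ResidueField O)) ∧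
      Matrix.trace (r' σ) - algebraMap O S o ∈ maximalIdeal S) :
    ¬ (DefRing.toAdic r' hc).IsFlatAt p := fun hflat => by
  obtain ⟨G⟩ := functionModel_of_flat_lift hΔ r' hc hflat htr hspan
  have hv : ¬ (p : ℤ) ∣ padicValRat p (W.Δ : ℚ) := by
    intro h
    apply hnf
    show (p : ℤ) ∣ padicValRat p (W.map (Int.castRingHom ℚ)).Δ
    rwa [WeierstrassCurve.map_Δ, eq_intCast]
  have hbad : (p : ℤ) ∣ W.Δ := by
    by_contra h
    refine hv ?_
    rw [padicValRat.of_int, padicValInt.eq_zero_of_not_dvd h]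
    exact dvd_zero _
  exact false_of_functionModel_tres hΔ hp2 hirr hbad (hss p Fact.out hbad) hv G

end

end FermatAgent.RTLift.Setup
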