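import Fermat.Agent.Conductor.Embedding
import Mathlib.Algebra.Algebra.ZMod
import Mathlib.LinearAlgebra.Matrix.Charpoly.Coeff

/-!
# The coefficient ring: `μ_{p^N}` in `O`, quadratics over `𝔽_p` split in the residue field
-/

set_option autoImplicit false

noncomputable section

namespace FermatAgent.RTLift.Setup

open IsLocalRing

/-- A root of unity of order prime to the residue characteristic which reduces to one is one. -/
theorem eq_one_of_residue_eq_one {O : Type} [CommRing O] [IsDomain O] [IsLocalRing O] {m : ℕ}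
    (hm : (m : ResidueField O) ≠ 0) {η : O} (hη : η ^ m = 1) (h : residue O η = 1) : η = 1 := by
  have h1 := geom_sum_mul η m
  rw [hη, sub_self, mul_eq_zero] at h1
  refine sub_eq_zero.1 (h1.resolve_left fun h2 => hm ?_)
  have h3 := congrArg (residue O) h2
  simpa [h] using h3

/-- With a primitive `(p²-1)`-th root of unity every quadratic over the prime field splits. -/
theorem exists_root_quadratic {k : Type*} [Field k] {p : ℕ} [Fact p.Prime] (hp2 : p ≠ 2)
    [Algebra (ZMod p) k] {w : k} (hw : IsPrimitiveRoot w (p ^ 2 - 1))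
    (g : Matrix (Fin 2) (Fin 2) (ZMod p)) :
    ∃ α : k, (g.map (algebraMap (ZMod p) k)).charpoly.IsRoot α := by
  have hp := (Fact.out : p.Prime)
  have h2 : (2 : k) ≠ 0 := fun h => hp2 ((Nat.prime_dvd_prime_iff_eq hp Nat.prime_two).1
    ((ZMod.natCast_eq_zero_iff 2 p).1 ((map_eq_zero (algebraMap (ZMod p) k)).1
      (by rw [map_natCast]; exact_mod_cast h))))
  set f := algebraMap (ZMod p) k
  set d := g.trace ^ 2 - 4 * g.det
  obtain ⟨s, hs⟩ : ∃ s : k, s ^ 2 = f d := by
    rcases eq_or_ne d 0 with h0 | h0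
    · exact ⟨0, by rw [h0, map_zero, zero_pow two_ne_zero]⟩
    have hd1 : f d ^ (p - 1) = 1 := by rw [← map_pow, ZMod.pow_card_sub_one_eq_one h0, map_one]
    have hfac : p ^ 2 - 1 = (p + 1) * (p - 1) := by simpa using Nat.sq_sub_sq p 1
    have : NeZero (p ^ 2 - 1) := ⟨by
      rw [hfac]; exact Nat.mul_ne_zero (by omega) (by have := hp.two_le; omega)⟩
    obtain ⟨i, -, hi⟩ := hw.eq_pow_of_pow_eq_one (ξ := f d) (by
      rw [hfac, mul_comm, pow_mul, hd1, one_pow])
    rw [← hi, ← pow_mul, hw.pow_eq_one_iff_dvd, hfac] at hd1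
    have h3 : p + 1 ∣ i := Nat.dvd_of_mul_dvd_mul_right (by have := hp.two_le; omega) hd1
    obtain ⟨j, rfl⟩ : 2 ∣ i := by
      refine dvd_trans ?_ h3
      obtain ⟨a, ha⟩ := hp.odd_of_ne_two hp2
      exact ⟨a + 1, by omega⟩
    exact ⟨w ^ j, by rw [← pow_mul, mul_comm, hi]⟩
  refine ⟨(f g.trace + s) / 2, ?_⟩
  have ht : (g.map f).trace = f g.trace := (AddMonoidHom.map_trace f.toAddMonoidHom g).symm
  have hd : (g.map f).det = f g.det := (RingHom.map_det f g).symm
  rw [Polynomial.IsRoot.def, Matrix.charpoly_fin_two, ht, hd]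
  simp only [Polynomial.eval_add, Polynomial.eval_sub, Polynomial.eval_pow, Polynomial.eval_mul,
    Polynomial.eval_X, Polynomial.eval_C]
  simp only [d, map_sub, map_mul, map_pow, map_ofNat] at hs
  field_simp
  linear_combination hs

/-- The coefficient ring. -/
theorem exists_coeff (p : ℕ) [Fact p.Prime] (hp2 : p ≠ 2) (N : ℕ) :
    ∃ (O : Type) (_ : CommRing O) (_ : IsDomain O) (_ : IsDiscreteValuationRing O)
      (_ : IsAdicComplete (maximalIdeal O) O) (_ : Finite (ResidueField O)) (_ : CharZero O)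
      (_ : Algebra (ZMod p) (ResidueField O)), (p : O) ∈ maximalIdeal O ∧
      (∃ ζ : O, ζ ^ p = 1 ∧ ζ ≠ 1) ∧ (∀ k, k ≤ N → ∃ z : O, IsPrimitiveRoot z (p ^ k)) ∧
      ∀ g : Matrix (Fin 2) (Fin 2) (ZMod p), ∃ α : ResidueField O,
        (g.map (algebraMap (ZMod p) (ResidueField O))).charpoly.IsRoot α := by
  have hp := (Fact.out : p.Prime)
  set m := p ^ 2 - 1
  have hfac : m = (p + 1) * (p - 1) := by simpa [m] using Nat.sq_sub_sq p 1
  have hm0 : m ≠ 0 := by
    rw [hfac]; exact Nat.mul_ne_zero (by omega) (by have := hp.two_le; omega)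
  set n := p ^ (N + 1) * m with hn
  have hn0 : n ≠ 0 := Nat.mul_ne_zero (pow_ne_zero _ hp.ne_zero) hm0
  have : NeZero n := ⟨hn0⟩
  have : NeZero (n : ℚ) := ⟨Nat.cast_ne_zero.2 hn0⟩
  have : IsCyclotomicExtension {n} ℚ (CyclotomicField n ℚ) :=
    CyclotomicField.isCyclotomicExtension _ _
  obtain ⟨O, i1, i2, i3, i4, i5, i6, hpO, ι, hι⟩ :=
    Conductor.exists_completion_numberField (CyclotomicField n ℚ) p
  have hz := ((IsCyclotomicExtension.zeta_spec n ℚ
    (CyclotomicField n ℚ)).toInteger_isPrimitiveRoot).map_of_injective hι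
  set z := ι (IsCyclotomicExtension.zeta_spec n ℚ (CyclotomicField n ℚ)).toInteger
  have hchar : CharP (ResidueField O) p := (CharP.charP_iff_prime_eq_zero hp).2
    (by rw [← map_natCast (residue O), residue_eq_zero_iff]; exact hpO)
  let alg : Algebra (ZMod p) (ResidueField O) := ZMod.algebra (ResidueField O) p
  have hpow : ∀ k, k ≤ N + 1 → IsPrimitiveRoot (z ^ (p ^ (N + 1 - k) * m)) (p ^ k) := fun k hk =>
    hz.pow (Nat.pos_of_ne_zero hn0) (by
      rw [hn, mul_right_comm, ← pow_add, Nat.sub_add_cancel hk])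
  have h1 := hpow 1 (Nat.le_add_left 1 N)
  rw [pow_one] at h1
  refine ⟨O, i1, i2, i3, i4, i5, i6, alg, hpO, ⟨_, h1.pow_eq_one, h1.ne_one hp.one_lt⟩,
    fun k hk => ⟨_, hpow k (hk.trans (Nat.le_succ N))⟩, fun g => ?_⟩
  · have hw : IsPrimitiveRoot (z ^ (p ^ (N + 1))) m := hz.pow (Nat.pos_of_ne_zero hn0) rfl
    refine exists_root_quadratic hp2 (w := residue O (z ^ (p ^ (N + 1))))
      ⟨by rw [← map_pow, hw.pow_eq_one, map_one], fun l hl => hw.dvd_of_pow_eq_one l ?_⟩ g
    refine eq_one_of_residue_eq_one (m := m) ?_ ?_ (by rw [map_pow]; exact hl)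
    · intro h
      rw [CharP.cast_eq_zero_iff (ResidueField O) p, hfac] at h
      rcases hp.dvd_mul.1 h with h | h
      · have := (Nat.dvd_add_right (dvd_refl p)).1 h
        exact hp.one_lt.ne' (Nat.dvd_one.1 this)
      · have := Nat.le_of_dvd (by have := hp.two_le; omega) h
        have := hp.two_le
        omega
    · rw [← pow_mul, mul_comm l, pow_mul, hw.pow_eq_one, one_pow]

end FermatAgent.RTLift.Setup
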