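import Fermat.Agent.RTLift.Forms.Residual
import Fermat.Agent.RTLift.Old.Equivariant

/-!
# A residual system of a curve at a level and at its multiple by an auxiliary prime
-/

set_option autoImplicit false

noncomputable section

namespace FermatAgent.RTLift.Setup

open IsLocalRing CongruenceSubgroup FermatAgent.RTLift.Modules

variable {O : Type} [CommRing O] [IsDomain O] [CharZero O]

/-- With trivial character and torsion-free coefficients the first degeneracy map is injective. -/
theorem degI_injective_trivial {M M' : ℕ} [NeZero M'] (hMM : M ∣ M') :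
    Function.Injective (degI (one_dvd M) (one_dvd M') (1 : (ZMod 1)ˣ →* O) O hMM) := by
  refine (injective_iff_map_eq_zero _).mpr fun x hx => ?_
  induction x using Submodule.Quotient.induction_on with
  | H f =>
    rw [degI, CrossCorr.onH1_mk, Submodule.Quotient.mk_eq_zero] at hx
    obtain ⟨a, ha⟩ := hx
    have hf : f = 0 := by
      refine Subtype.ext (funext fun g => ?_)
      let K : Subgroup (Gamma0 M) := (Gamma M').subgroupOf (Gamma0 M)
      have := CongruenceSubgroup.Gamma_normal M'
      have hK : K.Normal := Subgroup.Normal.subgroupOf inferInstance _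
      have hKfi : K.FiniteIndex := inferInstance
      have hk := K.pow_index_mem g
      have hk' : ((g ^ K.index : Gamma0 M) : Matrix.SpecialLinearGroup (Fin 2) ℤ) ∈ Gamma0 M' := by
        have hk1 := Gamma_mem.mp (Subgroup.mem_subgroupOf.mp hk)
        rw [Gamma0_mem]
        exact hk1.2.2.1
      have h1 := congrFun (congrArg Subtype.val ha) ⟨_, hk'⟩
      have hmove : (inclCross (one_dvd M) (one_dvd M') (1 : (ZMod 1)ˣ →* O) hMM).move ⟨_, hk'⟩ () =
          g ^ K.index := rfl
      rw [CrossCorr.apply_apply, Fintype.sum_unique, coboundary_apply] at h1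
      have hw : (inclCross (one_dvd M) (one_dvd M') (1 : (ZMod 1)ˣ →* O) hMM).weight
          (default : Unit) = 1 := by
        simp [inclCross, CrossCorr.ofDelta]
      rw [hw, one_smul] at h1
      rw [hmove] at h1
      simp [levelChar_apply] at h1
      have hpow : ∀ n : ℕ, (f : Gamma0 M → O) (g ^ n) = n * (f : Gamma0 M → O) g := by
        intro n
        induction n with
        | zero => simp
        | succ n ih =>
          rw [pow_succ, crossed_mul, ih]
          simp [levelChar_apply]
          ring
      rw [hpow] at h1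
      simpa [Subgroup.FiniteIndex.index_ne_zero] using h1.symm
    rw [hf]
    rfl

variable [IsLocalRing O] [IsNoetherianRing O] [IsAdicComplete (maximalIdeal O) O]
  [Finite (ResidueField O)] {J : Type} (pr : J → Nat.Primes)

/-- The residual system of a curve at the level `M` or `M * q`. -/
theorem localH1_ne_bot_of_level {W : WeierstrassCurve ℤ} {p : ℕ} [Fact p.Prime]
    (hp : (p : O) ∈ maximalIdeal O) {M : ℕ} [NeZero M] (hW : W.IsResiduallyModularOfLevel p M)
    (hpr : ∀ j, W.IsGoodPrimeFor (pr j) ∧ ¬ (pr j : ℕ) ∣ M ∧ (pr j : ℕ) ≠ p) (N : ℕ) [NeZero N]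
    (hN : N = M ∨ ∃ q : ℕ, q.Prime ∧ (∀ j, (pr j : ℕ) ≠ q) ∧ N = M * q) :
    localH1 (one_dvd N) (1 : (ZMod 1)ˣ →* O) O pr
      (fun j => (W.apOfModel (pr j) : ResidueField O)) ≠ ⊥ := by
  have h := Forms.localH1_ne_bot_of_isResiduallyModularOfLevel pr hp hW hpr
  rcases hN with rfl | ⟨q, hq, hqj, rfl⟩
  · exact h
  have : NeZero q := ⟨hq.ne_zero⟩
  obtain ⟨x, hx, hx0⟩ := Submodule.exists_mem_ne_zero_of_ne_bot h
  rw [Submodule.ne_bot_iff]
  refine ⟨degI (one_dvd M) (one_dvd (M * q)) (1 : (ZMod 1)ˣ →* O) O (dvd_mul_right M q) x,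
    map_mem_part _ (commAeval_comm _ _ _ _ _
      (Old.degI_heckeOp (A := O) (one_dvd M) (1 : (ZMod 1)ˣ →* O) pr hq hqj)) hx, fun h0 => hx0 ?_⟩
  exact degI_injective_trivial (dvd_mul_right M q) (h0.trans (map_zero _).symm)

end FermatAgent.RTLift.Setup
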