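import Fermat.Agent.RTLift.Setup.Global.Residual
import Fermat.Agent.RTLift.Finish.Interface
import Fermat.Agent.GalRep.Density.Frobenius
import Fermat.Agent.Ihara.Kernel

/-!
# Consequences of the full image: auxiliary primes and non-Eisenstein traces
-/

set_option autoImplicit false
set_option linter.unusedSectionVars false

open scoped WeierstrassCurve.Affine

namespace FermatAgent.RTLift.Setup

open Matrix WeierstrassCurve WeierstrassCurve.Affine FermatAgent.GalRep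

noncomputable section

local notation "Qb" => AlgebraicClosure ℚ
local notation "GQ" => AlgebraicClosure ℚ ≃ₐ[ℚ] AlgebraicClosure ℚ

variable {W : WeierstrassCurve ℤ} {p : ℕ} [Fact p.Prime]
  (hΔ : (W.map (Int.castRingHom ℚ)).Δ ≠ 0)

omit hΔ in
theorem levelMat_one_surjective {E : WeierstrassCurve ℚ} (hE : E.Δ ≠ 0) (m : ℕ) (hm : p ^ 1 = m)
    (hsurj : ∀ f : Module.End (ZMod m) (Submodule.torsionBy ℤ (E⁄Qb).Point (m : ℤ)), IsUnit f →
      ∃ σ, Point.galoisRepModuleEnd (K := Qb) ℚ E m σ = f) :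
    ∀ M : Matrix (Fin 2) (Fin 2) (ZMod (p ^ 1)), IsUnit M →
      ∃ σ, Tate.levelMat (p := p) hE 1 σ = M := by
  subst hm
  intro M hM
  obtain ⟨σ, hσ⟩ := hsurj ((LinearMap.toMatrixAlgEquiv (Tate.torBasis (p := p) hE 1)).symm M)
    (hM.map (LinearMap.toMatrixAlgEquiv (Tate.torBasis (p := p) hE 1)).symm)
  refine ⟨σ, ?_⟩
  show LinearMap.toMatrixAlgEquiv (Tate.torBasis (p := p) hE 1) _ = M
  rw [hσ, AlgEquiv.apply_symm_apply]

variable (hI : Finish.FullImage W p)
include hI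

theorem gmat_surjective (M : Matrix (Fin 2) (Fin 2) (ZMod p)) (hM : IsUnit M.det) :
    ∃ σ, gmat (p := p) hΔ σ = M := by
  let φ := ZMod.castHom (pow_one p).dvd (ZMod (p ^ 1))
  obtain ⟨σ, hσ⟩ := levelMat_one_surjective (p := p) hΔ p (pow_one p) (fun f hf => hI hΔ f hf)
    (φ.mapMatrix M) (((Matrix.isUnit_iff_isUnit_det M).2 hM).map φ.mapMatrix)
  refine ⟨σ, ?_⟩
  rw [gmat_eq, hσ]
  ext i j
  simp only [RingHom.mapMatrix_apply, Matrix.map_apply, φ]
  rw [← ZMod.natCast_zmod_val (M i j), map_natCast, map_natCast]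

theorem span_range_gmat :
    Submodule.span (ZMod p) (Set.range (gmat (p := p) hΔ)) = ⊤ := by
  have hmem : ∀ M : Matrix (Fin 2) (Fin 2) (ZMod p), IsUnit M.det →
      M ∈ Submodule.span (ZMod p) (Set.range (gmat (p := p) hΔ)) := fun M hM => by
    obtain ⟨σ, rfl⟩ := gmat_surjective hΔ hI M hM
    exact Submodule.subset_span ⟨σ, rfl⟩
  refine eq_top_iff.2 fun N _ => ?_
  have e : N = (N 0 0 - N 1 1) • ((!![1, 1; 1, 0] : Matrix (Fin 2) (Fin 2) (ZMod p)) -
        (!![0, 1; 1, 0] : Matrix (Fin 2) (Fin 2) (ZMod p))) +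
      N 1 1 • (1 : Matrix (Fin 2) (Fin 2) (ZMod p)) +
      N 0 1 • ((!![1, 1; 0, 1] : Matrix (Fin 2) (Fin 2) (ZMod p)) - 1) +
      N 1 0 • ((!![1, 0; 1, 1] : Matrix (Fin 2) (Fin 2) (ZMod p)) - 1) := by
    ext i j
    fin_cases i <;> fin_cases j <;> simp [Matrix.smul_apply]
  rw [e]
  refine add_mem (add_mem (add_mem ?_ ?_) ?_) ?_ <;> refine Submodule.smul_mem _ _ ?_
  · exact sub_mem (hmem _ (by simp [Matrix.det_fin_two])) (hmem _ (by simp [Matrix.det_fin_two]))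
  · exact hmem _ (by simp)
  · exact sub_mem (hmem _ (by simp [Matrix.det_fin_two])) (hmem _ (by simp))
  · exact sub_mem (hmem _ (by simp [Matrix.det_fin_two])) (hmem _ (by simp))

omit hI in
theorem gmat_finiteLevel : GaloisFactorsThroughFiniteLevel (gmat (p := p) hΔ) := by
  obtain ⟨L, hL, h1⟩ := Local.galoisRep_factorsThroughFiniteLevel (W.map (Int.castRingHom ℚ)) hΔ
    (pow_ne_zero 1 (Fact.out : p.Prime).ne_zero)
  refine ⟨L, hL, fun σ hσ => ?_⟩
  rw [gmat_eq]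
  have : Tate.levelMat (p := p) hΔ 1 σ = 1 := by
    show LinearMap.toMatrixAlgEquiv _ (Point.galoisRepModuleEnd ℚ _ (p ^ 1) σ) = 1
    rw [h1 σ hσ, map_one]
  rw [this, Matrix.map_one _ (map_zero _) (map_one _)]

variable (hirr : W.ModRepIsIrreducible p) (hp2 : p ≠ 2)
include hΔ hirr hp2

/-- For odd `p` an element of trace zero and determinant `±1` powers. -/
theorem exists_prime_of_matrix (g : Matrix (Fin 2) (Fin 2) (ZMod p)) (hg : IsUnit g.det)
    (B : Finset ℕ) :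
    ∃ l : ℕ, l.Prime ∧ l ∉ B ∧ l ≠ p ∧ ¬ (l : ℤ) ∣ W.Δ ∧ ∃ k m : ℕ, g ^ (k * m) = g ∧
      (g ^ k).trace = (W.apOfModel l : ZMod p) ∧ (g ^ k).det = (l : ZMod p) := by
  classical
  obtain ⟨σ, hσ⟩ := gmat_surjective hΔ hI g hg
  obtain ⟨l, hl, hlS, A, hA, τ, hτ, m, k, hm, hk⟩ := exists_isFrobeniusAt_map_pow_eq
    (gmat (p := p) hΔ) (gmat_finiteLevel hΔ) σ
    (S := ↑(B ∪ insert p W.Δ.natAbs.primeFactors)) (Finset.finite_toSet _)
  simp only [Finset.coe_union, Finset.coe_insert, Set.mem_union, Set.mem_insert_iff,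
    Finset.mem_coe, not_or] at hlS
  obtain ⟨hlB, hlp, hlΔ⟩ := hlS
  have hgood : ¬ (l : ℤ) ∣ W.Δ := fun h => hlΔ (Nat.mem_primeFactors.2
    ⟨hl, Int.natCast_dvd.1 h, Int.natAbs_ne_zero.2 (Tate.intΔ_ne_zero W hΔ)⟩)
  rw [map_pow, hσ] at hk
  rw [map_pow, ← hk, ← pow_mul, hσ] at hm
  refine ⟨l, hl, hlB, hlp, hgood, k, m, hm, ?_, ?_⟩
  · rw [hk]; exact trace_gmat_frobenius hΔ hirr hl hlp hgood hA hτ
  · rw [hk, det_gmat hΔ hirr, ← toZMod_cycChar, cycChar_frobenius p hl hlp hA hτ, map_natCast]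

/-- An auxiliary prime `r ≡ 2 (mod 3)` with `a_r ≢ 0`, for `p = 3`. -/
theorem exists_auxPrime (B : Finset ℕ) :
    ∃ l : ℕ, l.Prime ∧ l ∉ B ∧ l ≠ p ∧ ¬ (l : ℤ) ∣ W.Δ ∧ (l : ZMod p) = -1 ∧
      (W.apOfModel l : ZMod p) ≠ 0 := by
  set g : Matrix (Fin 2) (Fin 2) (ZMod p) := !![0, 1; 1, 1] with hg
  have hd : g.det = -1 := by simp [hg, Matrix.det_fin_two]
  obtain ⟨l, hl, hlB, hlp, hgood, k, m, hkm, htr, hdet⟩ :=
    exists_prime_of_matrix hΔ hI hirr hp2 g (by rw [hd]; exact isUnit_one.neg) B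
  have h2 : (2 : ZMod p) ≠ 0 := fun h => hp2 ((Nat.prime_dvd_prime_iff_eq Fact.out Nat.prime_two).1
    ((ZMod.natCast_eq_zero_iff 2 p).1 (by exact_mod_cast h)))
  have hodd : Odd k := by
    by_contra hev
    rw [Nat.not_odd_iff_even] at hev
    have h1 := congrArg Matrix.det hkm
    rw [Matrix.det_pow, hd, (hev.mul_right m).neg_one_pow] at h1
    exact h2 (by linear_combination h1)
  have hdk : (g ^ k).det = -1 := by rw [Matrix.det_pow, hd, hodd.neg_one_pow]
  refine ⟨l, hl, hlB, hlp, hgood, by rw [← hdet, hdk], fun h0 => ?_⟩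
  rw [← htr] at h0
  have hsq : g ^ k * g ^ k = 1 := by
    have h := (g ^ k).aeval_self_charpoly
    rw [Matrix.charpoly_fin_two, h0, hdk] at h
    simpa [sq, ← sub_eq_add_neg, sub_eq_zero] using h
  have h4 : g * g = 1 := by
    calc g * g = g ^ (k * m) * g ^ (k * m) := by rw [hkm]
      _ = (g ^ k * g ^ k) ^ m := by rw [(Commute.refl (g ^ k)).mul_pow, pow_mul]
      _ = 1 := by rw [hsq, one_pow]
  have := congrFun (congrFun h4 0) 1
  simp [hg, Matrix.mul_apply, Fin.sum_univ_two] at this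

theorem nonEisenstein (B : Finset ℕ) :
    Ihara.NonEisenstein {l : ℕ | l.Prime ∧ l ∉ B} fun l => (W.apOfModel l : ZMod p) := by
  classical
  have h2 : (2 : ZMod p) ≠ 0 := fun h => hp2 ((Nat.prime_dvd_prime_iff_eq Fact.out Nat.prime_two).1
    ((ZMod.natCast_eq_zero_iff 2 p).1 (by exact_mod_cast h)))
  have h4 : ((1 : ZMod p) + 1) ^ 2 ≠ 0 := by rw [one_add_one_eq_two]; exact pow_ne_zero _ h2
  refine ⟨fun l hl => hl.1, ?_, fun M hM => ?_⟩
  · set g : Matrix (Fin 2) (Fin 2) (ZMod p) := !![0, -1; 1, 0] with hg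
    have hd : g.det = 1 := by simp [hg, Matrix.det_fin_two]
    obtain ⟨l, hl, hlB, -, -, k, m, hkm, htr, hdet⟩ :=
      exists_prime_of_matrix hΔ hI hirr hp2 g (by rw [hd]; exact isUnit_one) B
    refine ⟨l, ⟨hl, hlB⟩, ?_⟩
    have hl1 : (l : ZMod p) = 1 := by rw [← hdet, Matrix.det_pow, hd, one_pow]
    have hg2 : g * g = -1 := by
      ext i j; fin_cases i <;> fin_cases j <;> simp [hg, Matrix.mul_apply, Fin.sum_univ_two]
    have htr0 : (W.apOfModel l : ZMod p) = 0 := by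
      rw [← htr]
      rcases Nat.even_or_odd' k with ⟨i, rfl | rfl⟩
      · exfalso
        rw [mul_assoc, pow_mul, sq, hg2] at hkm
        have := congrFun (congrFun hkm 1) 0
        rcases neg_one_pow_eq_or (Matrix (Fin 2) (Fin 2) (ZMod p)) (i * m) with h | h <;>
          rw [h] at this <;> simp [hg] at this
      · rw [pow_succ, pow_mul, sq, hg2]
        rcases neg_one_pow_eq_or (Matrix (Fin 2) (Fin 2) (ZMod p)) i with h | h <;>
          rw [h] <;> simp [hg, Matrix.trace_fin_two]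
    simp only [htr0, hl1]
    rw [zero_pow two_ne_zero]
    exact h4.symm
  · have hne : NeZero M := ⟨hM.ne'⟩
    have hneQ : NeZero ((M : ℕ) : Qb) := ⟨Nat.cast_ne_zero.2 hM.ne'⟩
    obtain ⟨ζ, hζ⟩ := HasEnoughRootsOfUnity.exists_primitiveRoot Qb M
    obtain ⟨a, ha⟩ := gmat_surjective hΔ hI !![-1, 0; 0, 1] (by simp [Matrix.det_fin_two])
    obtain ⟨b, hb⟩ := gmat_surjective hΔ hI !![0, 1; 1, 0] (by simp [Matrix.det_fin_two])
    set σ := a * b * a⁻¹ * b⁻¹ with hσ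
    have hσρ : gmat (p := p) hΔ σ = -1 := by
      have hinv : ∀ x : GQ, gmat (p := p) hΔ x * gmat (p := p) hΔ x = 1 →
          gmat (p := p) hΔ x⁻¹ = gmat (p := p) hΔ x := fun x hx => by
        have h1 : gmat (p := p) hΔ x⁻¹ * gmat (p := p) hΔ x = 1 := by
          rw [← map_mul, inv_mul_cancel, map_one]
        calc gmat (p := p) hΔ x⁻¹ = gmat (p := p) hΔ x⁻¹ * (gmat (p := p) hΔ x * gmat (p := p) hΔ x) := by
              rw [hx, mul_one]
          _ = gmat (p := p) hΔ x := by rw [← mul_assoc, h1, one_mul]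
      rw [hσ, map_mul, map_mul, map_mul, hinv a, hinv b, ha, hb]
      · ext i j; fin_cases i <;> fin_cases j <;> simp [Matrix.mul_apply, Fin.sum_univ_two]
      · rw [hb]; ext i j; fin_cases i <;> fin_cases j <;> simp [Matrix.mul_apply, Fin.sum_univ_two]
      · rw [ha]; ext i j; fin_cases i <;> fin_cases j <;> simp [Matrix.mul_apply, Fin.sum_univ_two]
    have hcomm : ∀ (x y : GQ), x (y ζ) = y (x ζ) := fun x y => by
      obtain ⟨i, -, hi⟩ := hζ.eq_pow_of_pow_eq_one (ξ := x ζ) (by rw [← map_pow, hζ.pow_eq_one, map_one])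
      obtain ⟨j, -, hj⟩ := hζ.eq_pow_of_pow_eq_one (ξ := y ζ) (by rw [← map_pow, hζ.pow_eq_one, map_one])
      rw [← hj, map_pow, ← hi, map_pow, ← hj, ← pow_mul, ← pow_mul, mul_comm]
    have hσζ : σ ζ = ζ := by
      have e : ∀ (x : GQ) (z : Qb), x⁻¹ (x z) = z := fun x z => by
        rw [← AlgEquiv.mul_apply, inv_mul_cancel, AlgEquiv.one_apply]
      rw [hσ]
      simp only [AlgEquiv.mul_apply]
      rw [hcomm a⁻¹ b⁻¹, ← AlgEquiv.mul_apply b b⁻¹, mul_inv_cancel, AlgEquiv.one_apply,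
        ← AlgEquiv.mul_apply a a⁻¹, mul_inv_cancel, AlgEquiv.one_apply]
    obtain ⟨L, hL, h1⟩ := gmat_finiteLevel (p := p) hΔ
    have : FiniteDimensional ℚ (IntermediateField.adjoin ℚ {ζ}) :=
      IntermediateField.adjoin.finiteDimensional
        ((hζ.isIntegral hM).tower_top)
    obtain ⟨l, hl, hlS, A, hA, τ, hτ, m, k, hm, hk⟩ := exists_isFrobeniusAt_pow_eq
      (L ⊔ IntermediateField.adjoin ℚ {ζ}) σ
      (S := ↑(B ∪ (insert p W.Δ.natAbs.primeFactors ∪ M.primeFactors))) (Finset.finite_toSet _)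
    simp only [Finset.coe_union, Finset.coe_insert, Set.mem_union, Set.mem_insert_iff,
      Finset.mem_coe, not_or] at hlS
    obtain ⟨hlB, ⟨hlp, hlΔ⟩, hlM⟩ := hlS
    have hgood : ¬ (l : ℤ) ∣ W.Δ := fun h => hlΔ (Nat.mem_primeFactors.2
      ⟨hl, Int.natCast_dvd.1 h, Int.natAbs_ne_zero.2 (Tate.intΔ_ne_zero W hΔ)⟩)
    have key : ∀ x y : GQ, (∀ z ∈ L ⊔ IntermediateField.adjoin ℚ {ζ}, x z = y z) →
        gmat (p := p) hΔ x = gmat (p := p) hΔ y := fun x y h => by
      have h' : gmat (p := p) hΔ (y⁻¹ * x) = 1 := h1 _ fun z hz => by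
        rw [AlgEquiv.mul_apply, h z (le_sup_left (b := IntermediateField.adjoin ℚ {ζ}) hz),
          ← AlgEquiv.mul_apply, inv_mul_cancel, AlgEquiv.one_apply]
      calc gmat (p := p) hΔ x = gmat (p := p) hΔ (y * (y⁻¹ * x)) := by rw [mul_inv_cancel_left]
        _ = gmat (p := p) hΔ y := by rw [map_mul, h', mul_one]
    have hk' := key _ _ hk
    have hm' := key _ _ hm
    rw [map_pow, hσρ] at hk'
    rw [map_pow, ← hk', hσρ, ← pow_mul] at hm'
    have hodd : Odd (k * m) := by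
      by_contra hev
      rw [Nat.not_odd_iff_even] at hev
      rw [hev.neg_one_pow] at hm'
      have := congrFun (congrFun hm' 0) 0
      simp at this
      exact h2 (by linear_combination this)
    rw [(Nat.odd_mul.1 hodd).1.neg_one_pow] at hk'
    have hl1 : (l : ZMod p) = 1 := by
      rw [← map_natCast (PadicInt.toZMod (p := p)), ← cycChar_frobenius p hl hlp hA hτ, toZMod_cycChar,
        ← det_gmat hΔ hirr, ← hk']
      simp [Matrix.det_neg]
    have htl : (W.apOfModel l : ZMod p) = -2 := by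
      rw [← trace_gmat_frobenius hΔ hirr hl hlp hgood hA hτ, ← hk']
      simp
    refine ⟨l, ⟨hl, hlB⟩, ?_, ?_⟩
    · have hζL : ζ ∈ L ⊔ IntermediateField.adjoin ℚ {ζ} :=
        le_sup_right (a := L) (IntermediateField.mem_adjoin_simple_self ℚ ζ)
      have hσk : ∀ n : ℕ, (σ ^ n) ζ = ζ := by
        intro n
        induction n with
        | zero => rfl
        | succ n ih => rw [pow_succ, AlgEquiv.mul_apply, hσζ, ih]
      have hτζ : τ ζ = ζ := by rw [← hk ζ hζL, hσk]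
      rw [show (l : ℤ) - 1 = ((l - 1 : ℕ) : ℤ) by rw [Nat.cast_sub hl.one_le, Nat.cast_one],
        Int.natCast_dvd_natCast, Nat.dvd_iff_prime_pow_dvd_dvd]
      intro q e hq hqe
      rcases Nat.eq_zero_or_pos e with rfl | he
      · simp
      have : Fact q.Prime := ⟨hq⟩
      have hql : l ≠ q := fun h => hlM (Nat.mem_primeFactors.2
        ⟨hl, h ▸ (dvd_pow_self q he.ne').trans hqe, hM.ne'⟩)
      obtain ⟨d, hd⟩ := hqe
      have hξ : IsPrimitiveRoot (ζ ^ d) (q ^ e) := hζ.pow hM (by rw [hd, mul_comm])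
      have hτξ : τ (ζ ^ d) = ζ ^ d := by rw [map_pow, hτζ]
      have h := cycChar_spec q τ e hξ.pow_eq_one
      rw [cycChar_frobenius q hl hql hA hτ, map_natCast, hτξ, ZMod.val_natCast] at h
      have hmod : l % q ^ e = 1 % q ^ e := by
        have h1 : (ζ ^ d) ^ 1 = (ζ ^ d) ^ (l % q ^ e) := by rw [pow_one]; exact h
        rw [(hξ.isOfFinOrder (pow_ne_zero e hq.ne_zero)).pow_eq_pow_iff_modEq, ← hξ.eq_orderOf,
          Nat.ModEq, Nat.mod_mod] at h1
        exact h1.symm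
      exact (Nat.modEq_iff_dvd' hl.one_le).1 hmod.symm
    · simp only [htl, hl1]
      intro h
      exact h4 (by linear_combination (-1 : ZMod p) * h)

end

end FermatAgent.RTLift.Setup
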