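import Fermat.Agent.RTLift.Setup.Points.Lemmas
import Fermat.Agent.RTLift.Galois.FrameCocycle
import Fermat.Agent.RTLift.Setup.Global.TresCurve
import Fermat.Agent.RTLift.Setup.Global.Image
import Fermat.Agent.LocalP.Conditions.Away
import Fermat.Agent.LocalP.Places

/-!
# The curve at the auxiliary primes
-/

set_option autoImplicit false
set_option linter.unusedSectionVars false

open scoped WeierstrassCurve.Affine

namespace FermatAgent.RTLift.Setup

open IsLocalRing FermatAgent.GalRep Matrix WeierstrassCurve WeierstrassCurve.Affine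
  FermatAgent.RTLift.LocalRings

noncomputable section

local notation "Qb" => AlgebraicClosure ℚ
local notation "GQ" => AlgebraicClosure ℚ ≃ₐ[ℚ] AlgebraicClosure ℚ

variable {W : WeierstrassCurve ℤ} {p : ℕ} [Fact p.Prime]
  (hΔ : (W.map (Int.castRingHom ℚ)).Δ ≠ 0)

/-- Good at `q ≠ p`: inertia is trivial on the Tate module. -/
theorem tateMatHom_eq_one_of_good {q : ℕ} (hq : q.Prime) (hqp : q ≠ p) (hgood : ¬ (q : ℤ) ∣ W.Δ)
    {A : ValuationSubring Qb} (hA : A.LiesOverPrime q) {σ : GQ}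
    (hσ : σ ∈ A.inertiaSubgroupIn ℚ) : Tate.tateMatHom (p := p) hΔ σ = 1 := by
  have h := LocalP.tateRep_isUnramifiedAt hΔ hq hqp hgood A hA σ hσ
  exact (Matrix.toLinAlgEquiv' : Matrix (Fin 2) (Fin 2) ℤ_[p] ≃ₐ[ℤ_[p]] _).injective
    (h.trans (map_one _).symm)

/-- Semistable at `q ≠ p`: inertia is unipotent on the Tate module. -/
theorem tateMatHom_unipotent (hss : W.IsSemistableModel) {q : ℕ} (hq : q.Prime) (hqp : q ≠ p)
    {A : ValuationSubring Qb} (hA : A.LiesOverPrime q) {σ : GQ}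
    (hσ : σ ∈ A.inertiaSubgroupIn ℚ) :
    (Tate.tateMatHom (p := p) hΔ σ).trace = 2 ∧ (Tate.tateMatHom (p := p) hΔ σ).det = 1 := by
  have h1 := LocalP.tateRep_isUnipotentOnInertiaAt hΔ hq hqp (hss q hq) A hA σ hσ
  rw [Tate.charpoly_tateRep, Matrix.charpoly_fin_two] at h1
  have h0 := congrArg (Polynomial.eval 0) h1
  have h1' := congrArg (Polynomial.eval 1) h1
  simp at h0 h1'
  exact ⟨by linear_combination h0 - h1', h0⟩

theorem gmat_inertia_pow (hss : W.IsSemistableModel) {q : ℕ} (hq : q.Prime) (hqp : q ≠ p)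
    {A : ValuationSubring Qb} (hA : A.LiesOverPrime q) {σ : GQ}
    (hσ : σ ∈ A.inertiaSubgroupIn ℚ) : gmat (p := p) hΔ σ ^ p = 1 := by
  have hpR : (p : ℤ_[p]) ∈ maximalIdeal ℤ_[p] := by
    rw [PadicInt.maximalIdeal_eq_span_p]; exact Ideal.mem_span_singleton_self _
  obtain ⟨ht, hd⟩ := tateMatHom_unipotent (p := p) hΔ hss hq hqp hA hσ
  have h := PointsLocal.residual_pow_of_unipotent hpR ht hd
  rw [← map_pow, ← sub_eq_zero]
  ext a b
  have h1 := h a b
  rw [← PadicInt.ker_toZMod, RingHom.mem_ker, ← map_pow] at h1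
  refine Eq.trans ?_ h1
  simp [gmat, Matrix.sub_apply, Matrix.one_apply, apply_ite (PadicInt.toZMod (p := p))]

/-- A tame generator acting trivially makes `E[p]` unramified. -/
theorem unramifiedMod_of_gen (hss : W.IsSemistableModel) {q : ℕ} (hq : q.Prime) (hqp : q ≠ p)
    {A : ValuationSubring Qb} (hA : A.LiesOverPrime q) {t : GQ} (ht : Galois.IsTameGen p q A t)
    (h1 : gmat (p := p) hΔ t = 1) : Finish.UnramifiedMod W p q := by
  obtain ⟨L, hL, hL1⟩ := gmat_finiteLevel (p := p) hΔ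
  let f : A.inertiaSubgroupIn ℚ →* (Matrix (Fin 2) (Fin 2) (ZMod p))ˣ :=
    ((gmat (p := p) hΔ).comp (A.inertiaSubgroupIn ℚ).subtype).toHomUnits
  have hall : ∀ σ ∈ A.inertiaSubgroupIn ℚ, gmat (p := p) hΔ σ = 1 := by
    intro σ hσ
    have h := Galois.IsTameGen.map_mem_zpowers (Fact.out : p.Prime) hq hqp hA ht L f
      (fun s hs => Units.ext (hL1 _ hs))
      (fun s => ⟨1, Units.ext (by
        rw [pow_one, Units.val_pow_eq_pow_val, Units.val_one]
        exact gmat_inertia_pow hΔ hss hq hqp hA s.2)⟩) ⟨σ, hσ⟩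
    rw [show f ⟨t, ht.1⟩ = 1 from Units.ext h1, Subgroup.zpowers_one_eq_bot, Subgroup.mem_bot] at h
    exact congrArg Units.val h
  intro A' hA' σ hσ x
  obtain ⟨g, hg⟩ := LocalP.exists_conj_inertia hq hA hA'
  have hσ1 : gmat (p := p) hΔ σ = 1 := by
    have h := hall _ (hg σ hσ)
    rw [map_mul, map_mul] at h
    have hgi : gmat (p := p) hΔ g * gmat (p := p) hΔ g⁻¹ = 1 := by
      rw [← map_mul, mul_inv_cancel, map_one]
    calc gmat (p := p) hΔ σ = (gmat (p := p) hΔ g * gmat (p := p) hΔ g⁻¹) * gmat (p := p) hΔ σ *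
          (gmat (p := p) hΔ g * gmat (p := p) hΔ g⁻¹) := by rw [hgi, one_mul, mul_one]
      _ = gmat (p := p) hΔ g *
          (gmat (p := p) hΔ g⁻¹ * gmat (p := p) hΔ σ * gmat (p := p) hΔ g) *
            gmat (p := p) hΔ g⁻¹ := by noncomm_ring
      _ = 1 := by rw [h, mul_one, hgi]
  obtain ⟨P, hP⟩ := x
  rw [Submodule.mem_torsionBy_iff, natCast_zsmul] at hP
  obtain ⟨v, hv⟩ := exists_torPt_eq (p := p) hΔ hP
  refine Subtype.ext ?_
  show σ • P = P
  rw [← hv, ← torPt_gmat, hσ1, Matrix.one_mulVec]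

/-- If `E[p]` is unramified at `q` then inertia acts trivially on it. -/
theorem gmat_eq_one_of_unramifiedMod {q : ℕ} (h : Finish.UnramifiedMod W p q)
    {A : ValuationSubring Qb} (hA : A.LiesOverPrime q) {σ : GQ}
    (hσ : σ ∈ A.inertiaSubgroupIn ℚ) : gmat (p := p) hΔ σ = 1 := by
  refine Matrix.ext_iff_mulVec.2 fun v => torPt_injective hΔ ?_
  rw [Matrix.one_mulVec, torPt_gmat]
  refine congrArg Subtype.val (h A hA σ hσ ⟨torPt hΔ v, ?_⟩)
  rw [Submodule.mem_torsionBy_iff, natCast_zsmul]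
  have hv : p • v = 0 := funext fun i => by
    rw [Pi.smul_apply, nsmul_eq_mul, ZMod.natCast_self, zero_mul]
    rfl
  rw [← map_nsmul, hv, map_zero]

variable {O : Type} [CommRing O] [IsLocalRing O] [IsAdicComplete (maximalIdeal O) O]
  [Algebra (ZMod p) (ResidueField O)] (hp : (p : O) ∈ maximalIdeal O)

theorem rhoO_inertia_pow (hss : W.IsSemistableModel) {q : ℕ} (hq : q.Prime) (hqp : q ≠ p)
    {A : ValuationSubring Qb} (hA : A.LiesOverPrime q) {σ : GQ}
    (hσ : σ ∈ A.inertiaSubgroupIn ℚ) : ∃ n, rhoO (p := p) (O := O) hΔ σ ^ p ^ n = 1 := by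
  refine ⟨1, Units.ext ?_⟩
  rw [pow_one, Units.val_pow_eq_pow_val, coe_rhoO, Units.val_one]
  have h := congrArg (RingHom.mapMatrix (algebraMap (ZMod p) (ResidueField O)))
    (gmat_inertia_pow (p := p) hΔ hss hq hqp hA hσ)
  rwa [map_pow, map_one] at h

theorem unramified_repO {q : ℕ} (hq : q.Prime) (hqp : q ≠ p) (hgood : ¬ (q : ℤ) ∣ W.Δ)
    {A : ValuationSubring Qb} (hA : A.LiesOverPrime q) {σ : GQ}
    (hσ : σ ∈ A.inertiaSubgroupIn ℚ) : repO hΔ hp σ = 1 := by
  show (padicToRing hp).mapMatrix (Tate.tateMatHom (p := p) hΔ σ) = 1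
  rw [tateMatHom_eq_one_of_good hΔ hq hqp hgood hA hσ, map_one]

theorem unramified_rhoO {q : ℕ} (hq : q.Prime) (hqp : q ≠ p) (hgood : ¬ (q : ℤ) ∣ W.Δ)
    {A : ValuationSubring Qb} (hA : A.LiesOverPrime q) {σ : GQ}
    (hσ : σ ∈ A.inertiaSubgroupIn ℚ) : rhoO (p := p) (O := O) hΔ σ = 1 := by
  refine Units.ext ?_
  show (algebraMap (ZMod p) (ResidueField O)).mapMatrix
    (PadicInt.toZMod.mapMatrix (Tate.tateMatHom (p := p) hΔ σ)) = 1
  rw [tateMatHom_eq_one_of_good hΔ hq hqp hgood hA hσ, map_one, map_one]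

theorem trace_frob_repO (hirr : W.ModRepIsIrreducible p) {q : ℕ} (hq : q.Prime) (hqp : q ≠ p)
    (hgood : ¬ (q : ℤ) ∣ W.Δ) {A : ValuationSubring Qb} (hA : A.LiesOverPrime q) {φ : GQ}
    (hφ : A.IsFrobeniusAt φ q) : Matrix.trace (repO hΔ hp φ) = (W.apOfModel q : O) := by
  rw [trace_repO, (Tate.trace_det_frobenius W hΔ (Tate.hasNonscalar_of_irreducible W hΔ hirr)
    hq hgood hqp hA hφ).1, map_intCast]

theorem trace_frob_rhoO (hp : (p : O) ∈ maximalIdeal O) (hirr : W.ModRepIsIrreducible p) {q : ℕ}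
    (hq : q.Prime) (hqp : q ≠ p) (hgood : ¬ (q : ℤ) ∣ W.Δ) {A : ValuationSubring Qb}
    (hA : A.LiesOverPrime q) {φ : GQ} (hφ : A.IsFrobeniusAt φ q) :
    Matrix.trace (rhoO (p := p) (O := O) hΔ φ : Matrix (Fin 2) (Fin 2) (ResidueField O)) =
      (W.apOfModel q : ResidueField O) := by
  rw [← residual_repO hΔ hp, trace_frob_repO hΔ hp hirr hq hqp hgood hA hφ, map_intCast]

/-- At a frame the point of the curve is unramified or special. -/
theorem sat_plain_repO [IsDomain O] [CharZero O] (hss : W.IsSemistableModel)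
    (hirr : W.ModRepIsIrreducible p) {q : ℕ} (hq : q.Prime) (hqp : q ≠ p)
    {A : ValuationSubring Qb} (hA : A.LiesOverPrime q) (c : O) {φ : GQ}
    (hφ : A.IsFrobeniusAt φ q) {τ : GQ} (hτ : τ ∈ A.inertiaSubgroupIn ℚ) :
    Sat .ur (q : O) c (repO hΔ hp φ) (repO hΔ hp τ - 1) ∨
      ∃ ε, Sat (.st ε) (q : O) c (repO hΔ hp φ) (repO hΔ hp τ - 1) := by
  refine PointsLocal.sat_plain_of_unipotent hp (isCont_repO hΔ hp) hq hqp hA (fun σ hσ => ?_) c hφ
    (PointsLocal.det_frobenius hp (det_repO hΔ hp hirr) hq hqp hA hφ) hτ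
  obtain ⟨ht, hd⟩ := tateMatHom_unipotent (p := p) hΔ hss hq hqp hA hσ
  refine ⟨?_, ?_⟩
  · rw [trace_repO, ht, map_ofNat]
  · show ((padicToRing hp).mapMatrix (Tate.tateMatHom (p := p) hΔ σ)).det = 1
    rw [← RingHom.map_det, hd, map_one]

/-- A configuration satisfied over `O` is allowed residually. -/
theorem sat_residue {cf : Cfg} {q : ℕ} {c : O} {φ τ : GQ}
    (h : Sat cf (q : O) c (repO hΔ hp φ) (repO hΔ hp τ - 1))
    {Φ₀ n₀ : Matrix (Fin 2) (Fin 2) O}
    (hΦ : Φ₀.map (residue O) = (rhoO (p := p) (O := O) hΔ φ : Matrix (Fin 2) (Fin 2) (ResidueField O)))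
    (hn : n₀.map (residue O) =
      (rhoO (p := p) (O := O) hΔ τ : Matrix (Fin 2) (Fin 2) (ResidueField O)) - 1) :
    Sat cf (q : ResidueField O) (residue O c) (Φ₀.map (residue O)) (n₀.map (residue O)) := by
  have h1 := Sat.map (residue O) h
  rw [map_natCast, map_repO, Matrix.map_sub _ (map_sub (residue O)), map_repO,
    Matrix.map_one _ (map_zero _) (map_one _)] at h1
  rwa [hΦ, hn]

end

end FermatAgent.RTLift.Setup
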