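import Fermat.Agent.RTLift.Setup.Ctx
import Fermat.Agent.RTLift.Galois.Frame
import Fermat.Agent.RTLift.Galois.ImageHyp
import Fermat.Agent.RTLift.Setup.Global.Local
import Fermat.Agent.TW.TWSets

/-!
# The residual data of a curve
-/

set_option autoImplicit false
set_option linter.unusedSectionVars false

open scoped WeierstrassCurve.Affine

namespace FermatAgent.RTLift.Setup

open IsLocalRing FermatAgent.GalRep Matrix WeierstrassCurve FermatAgent.RTLift.LocalRings

noncomputable section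

local notation "Qb" => AlgebraicClosure ℚ
local notation "GQ" => AlgebraicClosure ℚ ≃ₐ[ℚ] AlgebraicClosure ℚ

variable {W : WeierstrassCurve ℤ} {p : ℕ} [Fact p.Prime]
  (hΔ : (W.map (Int.castRingHom ℚ)).Δ ≠ 0)

section Sets

omit [Fact p.Prime] hΔ

/-- A Taylor–Wiles set stays one when enlarged by good primes, at lower levels. -/
theorem isTWSet_of_subset {k : Type} [Field k] {ρ : GQ →* GL (Fin 2) k} {p : ℕ} [Fact p.Prime]
    {T : Finset Nat.Primes} {N N' : ℕ} (hN : N' ≤ N) {Q Q' : Finset Nat.Primes}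
    (h : TW.IsTWSet ρ p T N Q) (hQ : Q ⊆ Q')
    (hgood : ∀ q ∈ Q', q ∉ Q → q ∉ T ∧ p ^ N ∣ (q : ℕ) - 1 ∧
      ∀ A : ValuationSubring Qb, A.LiesOverPrime (q : ℕ) → ∀ φ : GQ,
        A.IsFrobeniusAt φ (q : ℕ) → ∃ α β : k, α ≠ β ∧
          (ρ φ : Matrix (Fin 2) (Fin 2) k).charpoly =
            (Polynomial.X - Polynomial.C α) * (Polynomial.X - Polynomial.C β)) :
    TW.IsTWSet ρ p T N' Q' := by
  refine ⟨fun q hq => ?_, fun q hq => ?_, fun q hq => ?_,
    fun y hy hlev hdies => h.detects y hy hlev fun q hq => hdies q (hQ hq)⟩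
  · by_cases hq' : q ∈ Q
    exacts [h.notMem q hq', (hgood q hq hq').1]
  · refine (pow_dvd_pow p hN).trans ?_
    by_cases hq' : q ∈ Q
    exacts [h.dvd q hq', (hgood q hq hq').2.1]
  · by_cases hq' : q ∈ Q
    exacts [h.distinct q hq', (hgood q hq hq').2.2]

end Sets

variable {O : Type} [CommRing O] [IsDomain O] [IsDiscreteValuationRing O]
  [IsAdicComplete (maximalIdeal O) O] [Finite (ResidueField O)] [CharZero O]
  [Algebra (ZMod p) (ResidueField O)]

/-- The residual hypotheses of Taylor–Wiles. -/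
theorem twHyp_rhoO (hI : Finish.FullImage W p) (hirr : W.ModRepIsIrreducible p) (hp2 : p ≠ 2)
    (hk : ∀ g : Matrix (Fin 2) (Fin 2) (ZMod p), ∃ α : ResidueField O,
      (g.map (algebraMap (ZMod p) (ResidueField O))).charpoly.IsRoot α) :
    TW.TWHyp p (rhoO (p := p) (O := O) hΔ) := by
  refine Galois.twHyp_of_fullImage hp2 ?_ ?_ hk ?_ ?_
  · obtain ⟨L, hL, h1⟩ := gmat_finiteLevel (p := p) hΔ
    refine ⟨L, hL, fun σ hσ => Units.ext ?_⟩
    rw [coe_rhoO, h1 σ ((IntermediateField.mem_fixingSubgroup_iff _ _).1 hσ), Matrix.map_one _ (map_zero _) (map_one _), Units.val_one]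
  · intro σ
    rw [coe_rhoO, ← det_gmat (p := p) hΔ hirr σ]
    exact (RingHom.map_det _ _).symm
  · intro σ
    refine ⟨Matrix.GeneralLinearGroup.mk'' (gmat (p := p) hΔ σ) ?_, rfl⟩
    rw [det_gmat (p := p) hΔ hirr σ]
    exact Units.isUnit _
  · intro g
    obtain ⟨σ, hσ⟩ := gmat_surjective hΔ hI (g : Matrix (Fin 2) (Fin 2) (ZMod p))
      ((Matrix.isUnit_iff_isUnit_det _).1 g.isUnit)
    exact ⟨σ, by rw [coe_rhoO, hσ]⟩

/-- The roots of the residual Frobenius at a good prime `q ≡ 1`. -/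
theorem exists_roots (hp : (p : O) ∈ maximalIdeal O) (hirr : W.ModRepIsIrreducible p) {q : ℕ}
    (hq : q.Prime) (hqp : q ≠ p) (hgood : ¬ (q : ℤ) ∣ W.Δ) (hq1 : p ∣ q - 1)
    (hdist : ∀ A : ValuationSubring Qb, A.LiesOverPrime q → ∀ φ : GQ,
      A.IsFrobeniusAt φ q → ∃ α β : ResidueField O, α ≠ β ∧
        (rhoO (p := p) (O := O) hΔ φ : Matrix (Fin 2) (Fin 2) (ResidueField O)).charpoly =
          (Polynomial.X - Polynomial.C α) * (Polynomial.X - Polynomial.C β)) :
    ∃ α β : ResidueField O, α ≠ β ∧ α + β = (W.apOfModel q : ResidueField O) ∧ α * β = 1 := by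
  obtain ⟨A, hA⟩ := RT.exists_liesOverPrime hq
  obtain ⟨φ, hφ⟩ := RT.exists_isFrobeniusAt hq hA
  obtain ⟨α, β, hne, hch⟩ := hdist A hA φ hφ
  rw [Matrix.charpoly_fin_two, trace_frob_rhoO hΔ hp hirr hq hqp hgood hA hφ,
    ← det_cyclo_rhoO hΔ hp hirr φ, cycChar_frobenius (p := p) hq hqp hA hφ, map_natCast,
    map_natCast] at hch
  have hq' : (q : ResidueField O) = 1 := by
    obtain ⟨m, hm⟩ := hq1
    have h0 : (p : ResidueField O) = 0 := by
      rw [← map_natCast (residue O), residue_eq_zero_iff]; exact hp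
    rw [show q = p * m + 1 by have := hq.one_le; omega, Nat.cast_add, Nat.cast_mul, h0, zero_mul,
      zero_add, Nat.cast_one]
  have h0 := congrArg (Polynomial.eval 0) hch
  have h1 := congrArg (Polynomial.eval 1) hch
  simp [hq'] at h0 h1
  exact ⟨α, β, hne, by linear_combination h1 - h0, by linear_combination -h0⟩

/-- The residual data over a finite set of primes containing the bad ones. -/
theorem exists_ctx (hp : (p : O) ∈ maximalIdeal O) (hp2 : p ≠ 2) (hss : W.IsSemistableModel)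
    (hirr : W.ModRepIsIrreducible p) (hI : Finish.FullImage W p) {ζ : O} (hζ : ζ ^ p = 1)
    (hζ1 : ζ ≠ 1)
    (hk : ∀ g : Matrix (Fin 2) (Fin 2) (ZMod p), ∃ α : ResidueField O,
      (g.map (algebraMap (ZMod p) (ResidueField O))).charpoly.IsRoot α)
    (T : Finset Nat.Primes) (hTp : ∀ q ∈ T, (q : ℕ) ≠ p)
    (hTΔ : ∀ q : Nat.Primes, (q : ℤ) ∣ W.Δ → (q : ℕ) ≠ p → q ∈ T) :
    ∃ (r : ℕ) (C : Ctx O p r {q // q ∈ T}), 0 < r ∧ (∀ ℓ, C.a ℓ = W.apOfModel ℓ) ∧
      C.ρ = rhoO (p := p) hΔ ∧ (∀ i, C.Fr.q i = i.1) := by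
  classical
  set ρ := rhoO (p := p) (O := O) hΔ
  let Fr : Galois.Frames p ρ {q // q ∈ T} :=
    { q := Subtype.val
      injective := Subtype.val_injective
      ne := fun i => hTp i.1 i.2
      frame := fun i => Classical.choice (Galois.nonempty_localFrame_of_pow i.1 (hTp i.1 i.2)
        fun A hA σ hσ => rhoO_inertia_pow hΔ hss i.1.2 (hTp i.1 i.2) hA hσ) }
  have hgood : ∀ ℓ : Nat.Primes, ℓ ∉ Fr.support → (ℓ : ℕ) ≠ p ∧ ¬ (ℓ : ℤ) ∣ W.Δ := by
    intro ℓ h
    simp only [Galois.Frames.support, Finset.mem_insert, Finset.mem_image, Finset.mem_univ,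
      true_and, not_or, not_exists] at h
    have hℓp : (ℓ : ℕ) ≠ p := fun e => h.1 (Subtype.ext e)
    exact ⟨hℓp, fun hd => h.2 ⟨ℓ, hTΔ ℓ hd hℓp⟩ rfl⟩
  have hunr : ∀ ℓ : Nat.Primes, ℓ ∉ Fr.support → ∀ A : ValuationSubring Qb,
      A.LiesOverPrime (ℓ : ℕ) → ∀ g ∈ A.inertiaSubgroupIn ℚ, ρ g = 1 := fun ℓ hℓ A hA g hg =>
    unramified_rhoO hΔ ℓ.2 (hgood ℓ hℓ).1 (hgood ℓ hℓ).2 hA hg
  have hpT : ExtCitation.pPrime p ∈ Fr.support := Finset.mem_insert_self _ _
  have htw := twHyp_rhoO hΔ hI hirr hp2 hk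
  obtain ⟨r, hr⟩ := TW.exists_twSets_of htw hpT hunr
  have hstep : ∀ n : ℕ, ∃ Q : Fin (r + 1) → Nat.Primes, Function.Injective Q ∧
      (∀ j, p ^ (n + 1) ∣ (Q j : ℕ) - 1) ∧
      TW.IsTWSet ρ p Fr.support 1 (Finset.univ.image Q) := by
    intro n
    obtain ⟨S, hSc, -, hS⟩ := hr n ∅
    obtain ⟨q, hqS, hqT, hqd, hqe⟩ := TW.exists_isGoodPrime htw hpT hunr n S
    let e : Fin (r + 1) ≃ (insert q S : Finset Nat.Primes) := (Finset.equivFinOfCardEq
      (by rw [Finset.card_insert_of_notMem hqS, hSc])).symm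
    have hcase : ∀ j, (e j).1 = q ∨ (e j).1 ∈ S := fun j => Finset.mem_insert.1 (e j).2
    refine ⟨fun j => (e j).1, Subtype.val_injective.comp e.injective, fun j => ?_, ?_⟩
    · show p ^ (n + 1) ∣ ((e j).1 : ℕ) - 1
      rcases hcase j with h | h
      · exact h.symm ▸ hqd
      · exact hS.dvd _ h
    · refine isTWSet_of_subset (Nat.le_add_left 1 n) hS (fun x hx => ?_) fun x hx hxS => ?_
      · exact Finset.mem_image.2 ⟨e.symm ⟨x, Finset.mem_insert_of_mem hx⟩, Finset.mem_univ _,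
          congrArg Subtype.val (e.apply_symm_apply _)⟩
      · obtain ⟨j, -, rfl⟩ := Finset.mem_image.1 hx
        rcases hcase j with h | h
        · exact h.symm ▸ ⟨hqT, hqd, hqe⟩
        · exact absurd h hxS
  choose Q hQi hQd hQtw using hstep
  have hQT : ∀ n j, Q n j ∉ Fr.support := fun n j =>
    (hQtw n).notMem _ (Finset.mem_image_of_mem _ (Finset.mem_univ j))
  have hroots : ∀ n j, ∃ α β : ResidueField O, α ≠ β ∧
      α + β = (W.apOfModel (Q n j : ℕ) : ResidueField O) ∧ α * β = 1 := fun n j =>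
    exists_roots hΔ hp hirr (Q n j).2 (hgood _ (hQT n j)).1 (hgood _ (hQT n j)).2
      ((dvd_pow_self p n.succ_ne_zero).trans (hQd n j))
      ((hQtw n).distinct _ (Finset.mem_image_of_mem _ (Finset.mem_univ j)))
  choose α β hne hsum hprod using hroots
  let D : Datum O {q // q ∈ T} :=
    { q := fun i => (i.1 : ℕ)
      c := fun _ => ζ + ζ ^ (p - 1)
      Φ₀ := fun i => (ρ (Fr.frame i).frob : Matrix (Fin 2) (Fin 2) (ResidueField O)).map
        (Function.surjInv residue_surjective)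
      n₀ := fun i => ((ρ (Fr.frame i).gen : Matrix (Fin 2) (Fin 2) (ResidueField O)) - 1).map
        (Function.surjInv residue_surjective) }
  have hpr : (p : ResidueField O) = 0 := by
    rw [← map_natCast (residue O), residue_eq_zero_iff]; exact hp
  refine ⟨r + 1,
    { ρ := ρ
      hp := hp
      Fr := Fr
      D := D
      ζ := fun _ => ζ
      valid :=
        { prime := Fact.out
          odd := hp2
          residueChar := hpr
          zeta_pow := fun _ => ⟨1, by rw [pow_one, hζ]⟩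
          zeta_ne_one := fun _ => hζ1
          c_eq := fun _ => ?_
          q_prime := fun i => i.1.2
          q_ne := fun i => hTp i.1 i.2 }
      D_q := fun _ => rfl
      datumLifts := fun i =>
        ⟨Matrix.ext fun a b => Function.surjInv_eq residue_surjective _,
          Matrix.ext fun a b => Function.surjInv_eq residue_surjective _⟩
      twHyp := htw
      unramified := hunr
      a := fun ℓ => W.apOfModel ℓ
      trace_frob := fun ℓ hℓ A hA φ hφ =>
        trace_frob_rhoO hΔ hp hirr ℓ.2 (hgood ℓ hℓ).1 (hgood ℓ hℓ).2 hA hφ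
      det_cyclo := det_cyclo_rhoO hΔ hp hirr
      nonEis := nonEisenstein hΔ hI hirr hp2
      Q := Q
      Q_injective := hQi
      Q_notMem := hQT
      Q_dvd := hQd
      Q_tw := hQtw
      α := α
      β := β
      roots_ne := hne
      roots_sum := hsum
      roots_prod := hprod }, r.succ_pos, fun _ => rfl, rfl, fun _ => rfl⟩
  show (ζ + ζ ^ (p - 1)) * ζ = ζ ^ 2 + 1
  rw [add_mul, ← pow_succ, Nat.sub_add_cancel (Fact.out : p.Prime).one_le, hζ, sq]

end

end FermatAgent.RTLift.Setup
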