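import Fermat.Agent.RTLift.Setup.Places
import Fermat.Agent.RTLift.Setup.Global.Data
import Fermat.Agent.RTLift.Setup.Global.BaseNeBot

/-!
# The initial level and the configurations allowed there
-/

set_option autoImplicit false
set_option linter.unusedSectionVars false

open scoped WeierstrassCurve.Affine

namespace FermatAgent.RTLift.Setup

open IsLocalRing FermatAgent.GalRep Matrix WeierstrassCurve FermatAgent.RTLift.LocalRings

noncomputable section

local notation "Qb" => AlgebraicClosure ℚ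
local notation "GQ" => AlgebraicClosure ℚ ≃ₐ[ℚ] AlgebraicClosure ℚ

variable {O : Type} [CommRing O] [IsDomain O] [IsDiscreteValuationRing O]
  [IsAdicComplete (maximalIdeal O) O] [Finite (ResidueField O)] [CharZero O]
  {p r : ℕ} [Fact p.Prime] [Algebra (ZMod p) (ResidueField O)] {I : Type} [Fintype I]
  (C : Ctx O p r I)

theorem base_eq_prod : ∀ L : List (Option I),
    C.base L = (L.map fun i => (C.place i : ℕ)).prod
  | [] => rfl
  | i :: L => by rw [Ctx.base, base_eq_prod L, List.map_cons, List.prod_cons, mul_comm]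

open Classical in
/-- The indices of the primes dividing `N`. -/
def levelOf (N : ℕ) : List (Option I) :=
  (Finset.univ.filter fun i => (C.place i : ℕ) ∣ N).toList

theorem nodup_levelOf (N : ℕ) : (levelOf C N).Nodup := Finset.nodup_toList _

theorem mem_levelOf {N : ℕ} {i : Option I} : i ∈ levelOf C N ↔ (C.place i : ℕ) ∣ N := by
  simp [levelOf]

theorem base_levelOf {N : ℕ} (hN : Squarefree N)
    (hcov : ∀ q : Nat.Primes, (q : ℕ) ∣ N → ∃ i, C.place i = q) : C.base (levelOf C N) = N := by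
  classical
  rw [base_eq_prod, levelOf, Finset.prod_map_toList]
  conv_rhs => rw [← Nat.prod_primeFactors_of_squarefree hN]
  refine Finset.prod_bij (fun i _ => (C.place i : ℕ)) (fun i hi => ?_) (fun i _ j _ h => ?_)
    (fun q hq => ?_) fun i _ => rfl
  · exact Nat.mem_primeFactors.2 ⟨(C.place i).2, (Finset.mem_filter.1 hi).2, hN.ne_zero⟩
  · exact C.place_injective (Subtype.ext h)
  · obtain ⟨hqp, hqd, -⟩ := Nat.mem_primeFactors.1 hq
    obtain ⟨i, hi⟩ := hcov ⟨q, hqp⟩ hqd
    exact ⟨i, Finset.mem_filter.2 ⟨Finset.mem_univ _, by rw [hi]; exact hqd⟩, by rw [hi]⟩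

section Curve

variable {W : WeierstrassCurve ℤ} (hΔ : (W.map (Int.castRingHom ℚ)).Δ ≠ 0)
  (hρ : C.ρ = rhoO (p := p) hΔ)
include hρ

/-- If unramified is allowed at `i`, then `E[p]` is unramified there. -/
theorem unramifiedMod_of_allowed_ur (hss : W.IsSemistableModel) (i : I)
    (h : C.D.Allowed i .ur) : Finish.UnramifiedMod W p (C.Fr.q i) := by
  refine unramifiedMod_of_gen hΔ hss (C.Fr.q i).2 (C.Fr.ne i) (C.Fr.frame i).liesOver
    (C.Fr.frame i).isTameGen ?_
  ext a b
  have h1 : ((C.D.n₀ i).map (residue O)) a b = 0 := h _ (Or.inl ⟨(a, b), rfl⟩)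
  rw [(C.datumLifts i).2, DFunLike.congr_fun hρ, coe_rhoO, Matrix.sub_apply, sub_eq_zero] at h1
  refine (algebraMap (ZMod p) (ResidueField O)).injective ?_
  rw [Matrix.map_apply] at h1
  rw [h1]
  rcases eq_or_ne a b with rfl | hab <;> simp [*]

/-- At a good prime `≡ -1` with non-zero eigenvalue no special configuration is allowed. -/
theorem not_allowed_st (hirr : W.ModRepIsIrreducible p) (i : I)
    (hgood : ¬ ((C.Fr.q i : ℕ) : ℤ) ∣ W.Δ) (hq : ((C.Fr.q i : ℕ) : ZMod p) = -1)
    (ha : (W.apOfModel (C.Fr.q i : ℕ) : ZMod p) ≠ 0) (ε : ℤˣ) : ¬ C.D.Allowed i (.st ε) := by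
  intro h
  have h1 : ((C.D.Φ₀ i).map (residue O)).trace -
      ((ε : ℤ) : ResidueField O) * ((C.D.q i : ResidueField O) + 1) = 0 :=
    h _ (Or.inl (Or.inl (Or.inr (Or.inl rfl))))
  rw [(C.datumLifts i).1, DFunLike.congr_fun hρ,
    trace_frob_rhoO hΔ C.hp hirr (C.Fr.q i).2 (C.Fr.ne i) hgood (C.Fr.frame i).liesOver
      (C.Fr.frame i).isFrobenius, C.D_q,
    ← map_natCast (algebraMap (ZMod p) (ResidueField O)), hq, map_neg, map_one, neg_add_cancel,
    mul_zero, sub_zero, ← map_intCast (algebraMap (ZMod p) (ResidueField O)), map_eq_zero] at h1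
  exact ha h1

/-- The curve satisfies a plain configuration, which is allowed. -/
theorem exists_cfg (hss : W.IsSemistableModel) (hirr : W.ModRepIsIrreducible p) (i : I) :
    ∃ cf : Cfg, (cf = .ur ∨ ∃ ε, cf = .st ε) ∧
      Sat cf (C.D.q i : O) (C.D.c i) (repO hΔ C.hp (C.Fr.frame i).frob)
        (repO hΔ C.hp (C.Fr.frame i).gen - 1) ∧
      C.D.Allowed i cf := by
  have hlift := C.datumLifts i
  rw [DFunLike.congr_fun hρ, DFunLike.congr_fun hρ] at hlift
  rw [C.D_q]
  rcases sat_plain_repO hΔ C.hp hss hirr (C.Fr.q i).2 (C.Fr.ne i) (C.Fr.frame i).liesOver (C.D.c i)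
    (C.Fr.frame i).isFrobenius (C.Fr.frame i).isTameGen.1 with h | ⟨ε, h⟩
  · refine ⟨.ur, .inl rfl, h, ?_⟩
    show Sat _ _ _ _ _
    rw [C.D_q]
    exact sat_residue hΔ C.hp h hlift.1 hlift.2
  · refine ⟨.st ε, .inr ⟨ε, rfl⟩, h, ?_⟩
    show Sat _ _ _ _ _
    rw [C.D_q]
    exact sat_residue hΔ C.hp h hlift.1 hlift.2

end Curve

end

end FermatAgent.RTLift.Setup
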