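import Fermat.Agent.GalRep.Flat.Datum
import Fermat.Agent.GalRep.Flat.Closure
import Fermat.Agent.GalRep.Construct.Algebra
import Fermat.Agent.DefRing.MatrixRep

/-!
# Flatness passes from `ℤ_p` to a coefficient ring with finite residue field
-/

set_option autoImplicit false

namespace FermatAgent.RTLift.Setup

open IsLocalRing FermatAgent.GalRep Matrix

noncomputable section

local notation "Qb" => AlgebraicClosure ℚ
local notation "GQ" => AlgebraicClosure ℚ ≃ₐ[ℚ] AlgebraicClosure ℚ

variable {p : ℕ} [Fact p.Prime] {O : Type} [CommRing O] [IsLocalRing O]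
  [IsAdicComplete (maximalIdeal O) O]

/-- A flat representation over `ℤ_p` stays flat over `O`. -/
theorem isFlatAt_mapRep_padicToRing [Finite (ResidueField O)] (hp : (p : O) ∈ maximalIdeal O)
    (r : GQ →* Matrix (Fin 2) (Fin 2) ℤ_[p]) (hr : DefRing.IsCont r)
    (hr' : DefRing.IsCont (DefRing.mapRep (padicToRing hp) r))
    (h : (DefRing.toAdic r hr).IsFlatAt p) :
    (DefRing.toAdic (DefRing.mapRep (padicToRing hp) r) hr').IsFlatAt p := by
  classical
  set φ := padicToRing (R := O) hp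
  refine ⟨inferInstance, fun I hI => ?_⟩
  obtain ⟨n, hn⟩ := GalRep.Flat.exists_pow_mem_of_finite_quotient hp I hI
  set I₀ : Ideal ℤ_[p] := RingHom.ker (PadicInt.toZModPow (p := p) n)
  have : NeZero (p ^ n) := ⟨pow_ne_zero n (Fact.out : p.Prime).ne_zero⟩
  have hI₀ : Finite (ℤ_[p] ⧸ I₀) :=
    Finite.of_injective _ (RingHom.kerLift_injective (PadicInt.toZModPow (p := p) n))
  have hI₀I : ∀ a ∈ I₀, φ a ∈ I := fun a ha => by
    rw [show I₀ = Ideal.span {(p : ℤ_[p]) ^ n} from PadicInt.ker_toZModPow n,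
      Ideal.mem_span_singleton'] at ha
    obtain ⟨b, rfl⟩ := ha
    rw [map_mul, map_pow, map_natCast]
    exact Ideal.mul_mem_left _ _ hn
  obtain ⟨H, hR, hH, hfin, -, -, e, hadd, heq⟩ := h.2 I₀ hI₀
  set N₀ : Submodule ℤ_[p] (Fin 2 → ℤ_[p]) := I₀ • ⊤
  set N : Submodule O (Fin 2 → O) := I • ⊤
  set M₀ := (Fin 2 → ℤ_[p]) ⧸ N₀
  let act₀ : GQ → M₀ → M₀ := fun σ => (DefRing.toAdic r hr).levelAction I₀ σ
  let G₀ : GalRep.Flat.FunctionModel p M₀ act₀ := GalRep.Flat.FunctionModel.ofHopf e hadd heq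
  have hM₀ : Finite M₀ := by
    refine Finite.of_surjective (fun c : Fin 2 → ℤ_[p] ⧸ I₀ =>
      (Submodule.Quotient.mk fun i => (c i).out : M₀)) fun q => ?_
    induction q using Submodule.Quotient.induction_on with
    | _ v =>
      refine ⟨fun i => Ideal.Quotient.mk I₀ (v i), ?_⟩
      rw [Submodule.Quotient.eq, DefRing.pi_mem_smul_top_iff]
      intro i
      rw [Pi.sub_apply, ← Ideal.Quotient.eq, Ideal.Quotient.mk_out]
  let act : GQ → (Fin 2 → O) ⧸ N → (Fin 2 → O) ⧸ N := fun σ =>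
    (DefRing.toAdic (DefRing.mapRep φ r) hr').levelAction I σ
  let β₀ : (Fin 2 → ℤ_[p]) →+ (Fin 2 → O) ⧸ N :=
    N.mkQ.toAddMonoidHom.comp (φ.toAddMonoidHom.compLeft (Fin 2))
  let β : M₀ →+ (Fin 2 → O) ⧸ N := QuotientAddGroup.lift N₀.toAddSubgroup β₀ fun v hv => by
    show Submodule.Quotient.mk (φ ∘ v) = 0
    rw [Submodule.Quotient.mk_eq_zero, DefRing.pi_mem_smul_top_iff]
    exact fun i => hI₀I _ ((DefRing.pi_mem_smul_top_iff I₀ v).1 hv i)
  have hβ : ∀ σ m, β (act₀ σ m) = act σ (β m) := fun σ m => by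
    induction m using Submodule.Quotient.induction_on with
    | _ v =>
      show Submodule.Quotient.mk (φ ∘ (r σ *ᵥ v)) = Submodule.Quotient.mk ((r σ).map φ *ᵥ (φ ∘ v))
      congr 1
      funext i
      exact RingHom.map_mulVec φ (r σ) v i
  have : Fintype (O ⧸ I) := Fintype.ofFinite _
  let π : ((O ⧸ I) → M₀) →+ (Fin 2 → O) ⧸ N :=
    { toFun := fun x => ∑ c, c.out • β (x c)
      map_zero' := by simp
      map_add' := fun x y => by simp [Finset.sum_add_distrib, smul_add] }
  have hπsurj : Function.Surjective π := fun q => by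
    induction q using Submodule.Quotient.induction_on with
    | _ w =>
      let e₀ : M₀ := Submodule.Quotient.mk ![1, 0]
      let e₁ : M₀ := Submodule.Quotient.mk ![0, 1]
      refine ⟨(fun c => if c = Ideal.Quotient.mk I (w 0) then e₀ else 0) +
        (fun c => if c = Ideal.Quotient.mk I (w 1) then e₁ else 0), ?_⟩
      rw [map_add]
      show (∑ c : O ⧸ I, Quotient.out c • β (if c = Ideal.Quotient.mk I (w 0) then e₀ else 0)) +
        ∑ c : O ⧸ I, Quotient.out c • β (if c = Ideal.Quotient.mk I (w 1) then e₁ else 0) = _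
      simp only [apply_ite β, map_zero, smul_ite, smul_zero, Finset.sum_ite_eq', Finset.mem_univ,
        if_true]
      show (Ideal.Quotient.mk I (w 0)).out • Submodule.Quotient.mk (φ ∘ ![1, 0]) +
        (Ideal.Quotient.mk I (w 1)).out • Submodule.Quotient.mk (φ ∘ ![0, 1]) = _
      rw [← Submodule.Quotient.mk_smul, ← Submodule.Quotient.mk_smul, ← Submodule.Quotient.mk_add,
        Submodule.Quotient.eq, DefRing.pi_mem_smul_top_iff]
      intro i
      fin_cases i <;>
        simp [← Ideal.Quotient.eq, Ideal.Quotient.mk_out]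
  have hπact : ∀ σ x, π (fun c => act₀ σ (x c)) = act σ (π x) := fun σ x => by
    show ∑ c, c.out • β (act₀ σ (x c)) = act σ (∑ c, c.out • β (x c))
    refine Eq.trans ?_ (map_sum ((DefRing.toAdic (DefRing.mapRep φ r) hr').levelAction I σ)
      (fun c => c.out • β (x c)) Finset.univ).symm
    refine Finset.sum_congr rfl fun c _ => ?_
    rw [hβ]
    exact (map_smul ((DefRing.toAdic (DefRing.mapRep φ r) hr').levelAction I σ) c.out (β (x c))).symm
  have : Finite ((Fin 2 → O) ⧸ N) := Finite.of_surjective π hπsurj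
  exact ((G₀.pow (O ⧸ I)).quotient π hπsurj hπact).exists_hopf

end

end FermatAgent.RTLift.Setup
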