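import Fermat.Agent.TW.Flat.Peu
import Fermat.Agent.LocalP.XFormulas
import Fermat.Agent.Local.TateGalois
import Mathlib.LinearAlgebra.Lagrange

/-!
# The très ramifiée torsion of a Tate curve has no local model

If `p ∤ v(c)` the abscissa `x` of a torsion point off `E₁` has a value outside those of the fields
fixed by `J = I ∩ ker χ`, and `J` moves it by at most `u |x|`, `u = |ζ - 1|`.  So `J` moves the
integers of its field by less than `u`, which a finite flat model forbids.
-/

set_option autoImplicit false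

open scoped WeierstrassCurve.Affine

namespace FermatAgent.RTLift.Setup

open WeierstrassCurve WeierstrassCurve.Affine FermatAgent.Local FermatAgent.TW.Flat
open Polynomial FermatAgent.TW

noncomputable section

local notation "Qb" => AlgebraicClosure ℚ
local notation "GQ" => AlgebraicClosure ℚ ≃ₐ[ℚ] AlgebraicClosure ℚ

variable {A : ValuationSubring Qb} {W : WeierstrassCurve.Affine Qb}

/-- Adding a point of `E₁` fixed by `J` moves the abscissa of a low point by at most `u` times it. -/
theorem val_xCoord_add_sub_le (hT : IsTate A W) {J : Subgroup GQ} {u : A.ValueGroup}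
    (hu : Uniform A J u) {x y t t' : Qb} {hP : W.Nonsingular x y} {hQ : W.Nonsingular t t'}
    {g : A.ValueGroup} (hlow : Low A W (.some x y hP) g) (ht : t ∉ A)
    (hfix : ∀ σ ∈ J, σ t = t ∧ σ t' = t') :
    A.valuation (LocalP.xCoord (Point.some x y hP + Point.some t t' hQ) - x) ≤ u * g := by
  obtain ⟨hx, hc, hg1, hy⟩ := hlow
  have hvt := one_lt_val_of_not_mem ht
  have hne : x ≠ t := fun h => ht (h ▸ mem_of_val_le_one (hx.trans_le hg1.le))
  rw [Point.add_of_X_ne hne]
  show A.valuation (W.addX x t (W.slope x t y t') - x) ≤ _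
  -- the ordinate of the point of `E₁`
  have hteq := hT.equation' hQ.1
  have hc3 : A.valuation (t ^ 3 + W.a₆) = A.valuation t ^ 3 := by
    rw [A.valuation.map_add_eq_of_lt_left, map_pow]
    rw [map_pow]; exact hT.c_lt.trans_le (one_le_pow₀ hvt.le)
  have hv' : A.valuation t < A.valuation t' := by
    by_contra hle
    rw [not_lt] at hle
    have h1 : A.valuation (t' * (t' + t)) ≤ A.valuation t ^ 2 := by
      rw [map_mul, sq]
      exact mul_le_mul' hle ((A.valuation.map_add _ _).trans (max_le hle le_rfl))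
    rw [hteq, hc3] at h1
    exact (pow_lt_pow_right₀ hvt (by norm_num : 2 < 3)).not_ge h1
  have hsq : A.valuation t' ^ 2 = A.valuation t ^ 3 := by
    rw [sq, ← hc3, ← hteq, map_mul, A.valuation.map_add_eq_of_lt_left hv']
  have ht0 : t ≠ 0 := fun h => ht (h ▸ zero_mem A)
  have ht'0 : t' ≠ 0 := fun h => by rw [h, map_zero] at hv'; exact absurd hv' (not_lt.2 zero_le)
  have hzu : A.valuation (t / t') ≤ u := by
    refine hu.le_of_lt_one (fun σ hσ => by rw [map_div₀, (hfix σ hσ).1, (hfix σ hσ).2]) ?_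
    rw [map_div₀]
    exact (div_lt_one₀ (zero_lt_iff.2 ((_root_.map_ne_zero _).2 ht'0))).2 hv'
  have hd0 : t - x ≠ 0 := sub_ne_zero.2 hne.symm
  have hd : A.valuation (t - x) = A.valuation t :=
    A.valuation.map_sub_eq_of_lt_left (hx.trans_lt (hg1.trans hvt))
  have key : (W.addX x t (W.slope x t y t') - x) * (t - x) ^ 2 =
      (W.a₆ + W.a₆) + (-(x ^ 3)) + 3 * (x ^ 2 * t) + (-(t' * (2 * y + x))) + (-(t * y)) := by
    have hd1 : x - t ≠ 0 := sub_ne_zero.2 hne
    rw [slope_of_X_ne hne]
    simp only [addX, hT.a₁, hT.a₂]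
    field_simp
    linear_combination (x - t) ^ 2 * (hT.equation' hQ.1) + (x - t) ^ 2 * (hT.equation' hP.1)
  have hvt' : 1 ≤ A.valuation t' := (hvt.trans hv').le
  have hg2 : g ^ 2 ≤ g := by rw [sq]; exact mul_le_of_le_one_left' hg1.le
  have hbound : A.valuation ((W.addX x t (W.slope x t y t') - x) * (t - x) ^ 2) ≤
      A.valuation t' * g := by
    rw [key]
    refine A.valuation.map_add_le (A.valuation.map_add_le (A.valuation.map_add_le
      (A.valuation.map_add_le (A.valuation.map_add_le ?_ ?_) ?_) ?_) ?_) ?_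
    · exact (hc.le.trans hg2).trans (le_mul_of_one_le_left' hvt')
    · exact (hc.le.trans hg2).trans (le_mul_of_one_le_left' hvt')
    · rw [Valuation.map_neg, map_pow, hx]
      refine le_trans ?_ (le_mul_of_one_le_left' hvt')
      rw [pow_succ]
      exact mul_le_of_le_one_left' (pow_le_one₀ zero_le hg1.le)
    · rw [map_mul, map_mul, map_pow, hx]
      refine (mul_le_of_le_one_left' (val_le_one_of_mem (natCast_mem A 3))).trans ?_
      rw [mul_comm (A.valuation t') g]
      exact mul_le_mul' hg2 hv'.le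
    · rw [Valuation.map_neg, map_mul]
      refine mul_le_mul' le_rfl (A.valuation.map_add_le ?_ hx.le)
      rw [map_mul]
      exact (mul_le_of_le_one_left' (val_le_one_of_mem (natCast_mem A 2))).trans hy.le
    · rw [Valuation.map_neg, map_mul]
      exact mul_le_mul' hv'.le hy.le
  rw [map_mul, map_pow, hd] at hbound
  have hz : A.valuation t' = A.valuation (t / t') * A.valuation t ^ 2 := by
    rw [map_div₀, div_mul_eq_mul_div, eq_div_iff ((_root_.map_ne_zero _).2 ht'0), ← sq, hsq]
    exact pow_succ' _ 2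
  rw [hz, mul_comm (A.valuation (t / t')) _, mul_assoc, mul_comm _ (A.valuation t ^ 2)] at hbound
  refine (le_of_mul_le_mul_left hbound (pow_pos (zero_lt_one.trans hvt) 2)).trans ?_
  exact mul_le_mul' hzu le_rfl

variable {p : ℕ} [Fact p.Prime]

/-- The expansion of an element of a degree `p` field in powers of a generator, by interpolation
at the conjugates. -/
theorem exists_expansion_interpolate {J : Subgroup GQ} {f : GQ → ZMod p}
    {y G : ZMod p → Qb} (hy : Function.Injective y)
    (hyJ : ∀ σ ∈ J, ∀ j, σ (y j) = y (j + f σ)) (hGJ : ∀ σ ∈ J, ∀ j, σ (G j) = G (j + f σ)) :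
    ∃ a : ℕ → Qb, (∀ k, ∀ σ ∈ J, σ (a k) = a k) ∧
      ∀ j, G j = ∑ k ∈ Finset.range p, a k * y j ^ k := by
  classical
  set Φ : Qb[X] := Lagrange.interpolate Finset.univ y G with hΦ
  have hinj : Set.InjOn y ↑(Finset.univ : Finset (ZMod p)) := hy.injOn
  have hdeg : Φ.degree < (Finset.univ : Finset (ZMod p)).card :=
    Lagrange.degree_interpolate_lt G hinj
  have hcard : (Finset.univ : Finset (ZMod p)).card = p := by rw [Finset.card_univ, ZMod.card]
  refine ⟨Φ.coeff, fun k σ hσ => ?_, fun j => ?_⟩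
  · have e : Φ.map (σ : Qb →+* Qb) = Φ := by
      refine Lagrange.eq_interpolate_of_eval_eq G hinj
        ((degree_map_le).trans_lt hdeg) fun j _ => ?_
      have h1 : y j = σ (y (j - f σ)) := by rw [hyJ σ hσ, sub_add_cancel]
      have h2 : G j = σ (G (j - f σ)) := by rw [hGJ σ hσ, sub_add_cancel]
      rw [h1, h2]
      show (Φ.map (σ : Qb →+* Qb)).eval ((σ : Qb →+* Qb) _) = (σ : Qb →+* Qb) _
      rw [eval_map, eval₂_at_apply]
      exact congrArg _ (Lagrange.eval_interpolate_at_node G hinj (Finset.mem_univ _))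
    conv_rhs => rw [← e, coeff_map]
    rfl
  · rw [← eval_eq_sum_range' (n := p)]
    · exact (Lagrange.eval_interpolate_at_node G hinj (Finset.mem_univ _)).symm
    · rcases eq_or_ne Φ 0 with h0 | h0
      · rw [h0, natDegree_zero]; exact (Fact.out : p.Prime).pos
      · rw [natDegree_lt_iff_degree_lt h0]
        rwa [hcard] at hdeg

/-- If a generator has a value outside `u ^ ℤ` and moves by at most `u` times itself, then the
integers move by less than `u`. -/
theorem val_move_lt {J : Subgroup GQ} {u : A.ValueGroup} (hu : Uniform A J u)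
    (hJA : J ≤ A.decompositionSubgroup ℚ) {a : ℕ → Qb} (ha : ∀ k, ∀ σ ∈ J, σ (a k) = a k)
    {y x : Qb} {s : ℕ} (hs : ¬ p ∣ s) (hy : A.valuation y ^ p = u ^ s) (hxA : x ∈ A)
    (hx : x = ∑ k ∈ Finset.range p, a k * y ^ k) {σ : GQ} (hσ : σ ∈ J)
    (hmove : A.valuation (σ y - y) ≤ u * A.valuation y) :
    A.valuation (σ x - x) < u := by
  classical
  have hp := (Fact.out : p.Prime)
  have hyne : y ≠ 0 := fun h => pow_ne_zero s hu.ne_zero
    (by rw [← hy, h, map_zero, zero_pow hp.ne_zero])
  have hval : ∀ k, a k ≠ 0 → ∃ n : ℤ, A.valuation (a k * y ^ k) ^ p = u ^ (p * n + k * s) := by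
    intro k hk
    obtain ⟨n, hn⟩ := hu.fixed _ hk (ha k)
    refine ⟨n, ?_⟩
    rw [map_mul, mul_pow, hn, map_pow, ← pow_mul, mul_comm k p, pow_mul, hy, ← pow_mul,
      ← zpow_natCast, ← zpow_mul, ← zpow_natCast, ← zpow_add₀ hu.ne_zero]
    congr 1
    push_cast
    ring
  have hdis : ∀ i ∈ Finset.range p, ∀ j ∈ Finset.range p, a i * y ^ i ≠ 0 →
      A.valuation (a i * y ^ i) = A.valuation (a j * y ^ j) → i = j := by
    intro i hi j hj hne e
    have haj : a j ≠ 0 := fun h => hne (by
      rw [h, zero_mul, map_zero, map_eq_zero] at e; exact e)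
    obtain ⟨n, hn⟩ := hval i (left_ne_zero_of_mul hne)
    obtain ⟨m, hm⟩ := hval j haj
    rw [e, hm] at hn
    have h := zpow_inj_of_lt_one hu.ne_zero hu.lt_one hn
    have hd : (p : ℤ) ∣ ((i : ℤ) - j) * s := ⟨m - n, by linear_combination h.symm⟩
    rcases (Nat.prime_iff_prime_int.1 hp).dvd_mul.1 hd with h' | h'
    · rw [Finset.mem_range] at hi hj
      have := Int.eq_zero_of_abs_lt_dvd h' (abs_sub_lt_iff.2 ⟨by omega, by omega⟩)
      omega
    · exact absurd (Int.natCast_dvd_natCast.1 h') hs
  rw [show σ x - x = ∑ k ∈ Finset.range p, (σ (a k * y ^ k) - a k * y ^ k) by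
    rw [Finset.sum_sub_distrib, ← map_sum, ← hx]]
  refine A.valuation.map_sum_lt hu.ne_zero fun k hk => ?_
  rcases eq_or_ne k 0 with rfl | hk0
  · rw [pow_zero, mul_one, ha 0 σ hσ, sub_self, map_zero]
    exact zero_lt_iff.2 hu.ne_zero
  rcases eq_or_ne (a k) 0 with hak | hak
  · rw [hak, zero_mul, map_zero σ, sub_zero, map_zero]
    exact zero_lt_iff.2 hu.ne_zero
  have h1 : A.valuation (a k * y ^ k) < 1 := by
    refine lt_of_le_of_ne ?_ fun h => ?_
    · exact ((hx ▸ val_term_le_sum hdis hk : _ ≤ A.valuation x)).trans (val_le_one_of_mem hxA)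
    · obtain ⟨n, hn⟩ := hval k hak
      rw [h, one_pow, ← zpow_zero u] at hn
      have h0 := zpow_inj_of_lt_one hu.ne_zero hu.lt_one hn
      have hd : (p : ℤ) ∣ (k : ℤ) * s := ⟨-n, by linear_combination -h0⟩
      rcases (Nat.prime_iff_prime_int.1 hp).dvd_mul.1 hd with h' | h'
      · rw [Finset.mem_range] at hk
        exact absurd (Nat.le_of_dvd (by omega) (Int.natCast_dvd_natCast.1 h')) (by omega)
      · exact hs (Int.natCast_dvd_natCast.1 h')
  rw [map_mul, ha k σ hσ, map_pow, ← mul_sub, ← geom_sum₂_mul, map_mul, map_mul]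
  have hgeom : A.valuation (∑ i ∈ Finset.range k, σ y ^ i * y ^ (k - 1 - i)) ≤
      A.valuation y ^ (k - 1) := A.valuation.map_sum_le fun i hi => by
    rw [Finset.mem_range] at hi
    rw [map_mul, map_pow, map_pow, val_galois_eq (hJA hσ), ← pow_add,
      show i + (k - 1 - i) = k - 1 by omega]
  refine (mul_le_mul' le_rfl (mul_le_mul' hgeom hmove)).trans_lt ?_
  calc A.valuation (a k) * (A.valuation y ^ (k - 1) * (u * A.valuation y))
      = u * A.valuation (a k * y ^ k) := by
        rw [map_mul, map_pow]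
        conv_rhs => rw [show k = k - 1 + 1 by omega, pow_succ]
        rw [show k - 1 + 1 = k by omega]
        ac_rfl
    _ < u * 1 := mul_lt_mul_of_pos_left h1 (zero_lt_iff.2 hu.ne_zero)
    _ = u := mul_one u

end

end FermatAgent.RTLift.Setup
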